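import Fermat.Agent.H70.KL.NormalityAt
import Fermat.Agent.H91.KLNorm.TameFull

/-!
# KL-N-TAME (row 396), full form : the tame cover package (helper70)

`tameCover : H91.KLNorm.TameCoverStatement`, hence (helper91's `TameFull`)
`normalityAtFull : H91.KLNorm.NormalityAtFullStatement`, unconditionally.
-/

set_option autoImplicit false
set_option linter.style.haveILetI false

noncomputable section

namespace Fermat.Agent.H70.KL

open Polynomial Fermat.Agent.H22.KL

/-- The place criterion of the tame alternative makes the Kummer polynomial irreducible. -/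
theorem tamePoly_irreducible {A : Type} [CommRing A] [IsDomain A] {E : Type} [Field E]
    [Algebra A E] (hinj : Function.Injective (algebraMap A E)) {x : E} {c : A} {e : ℕ}
    (he : 0 < e) {ζ : A} (hζ : IsPrimitiveRoot ζ e) (hxc : x - algebraMap A E c ≠ 0)
    (hO : ∀ d : ℕ, d.Prime → d ∣ e →
      ∃ v : ValuationSubring E, IsPlace A E v ∧ ¬ OrdDvd E v d (x - algebraMap A E c)) :
    Irreducible (tamePoly x c e) := by
  refine kummerIrrStatement E e he (algebraMap A E ζ) (hζ.map_of_injective hinj) _ ?_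
  intro d hd hde b hb
  obtain ⟨v, -, hnv⟩ := hO d hd hde
  apply hnv
  have hb0 : b ≠ 0 := by
    rintro rfl
    rw [zero_pow hd.ne_zero] at hb
    exact hxc hb.symm
  have h1 : (x - algebraMap A E c) * b⁻¹ ^ d = 1 := by
    rw [← hb, inv_pow]
    exact mul_inv_cancel₀ (pow_ne_zero _ hb0)
  refine ⟨b⁻¹, inv_ne_zero hb0, ?_, ?_⟩
  · rw [h1]; exact v.one_mem
  · rw [h1, inv_one]; exact v.one_mem

/-- **The tame cover package** (helper91's interface for both forms of the tame step). -/
theorem tameCover : Fermat.Agent.H91.KLNorm.TameCoverStatement := by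
  intro A _ _ _ E _ _ _ hinj ϖ hϖ x hx hGB c e he heU hζ' hT hO
  obtain ⟨ζ, hζ⟩ := hζ'
  have hxc : x - algebraMap A E c ≠ 0 := by
    intro h0
    apply hx
    rw [sub_eq_zero] at h0
    rw [h0]
    exact isAlgebraic_algebraMap c
  haveI : Fact (Irreducible (tamePoly x c e)) := ⟨tamePoly_irreducible hinj he hζ hxc hO⟩
  obtain ⟨σ, T⟩ := exists_tameSetup hinj x c e ζ he hζ heU hxc
  haveI hC0 : CharZero (AdjoinRoot (tamePoly x c e)) :=
    charZero_of_injective_algebraMap (algebraMap E (AdjoinRoot (tamePoly x c e))).injective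
  refine ⟨AdjoinRoot (tamePoly x c e), inferInstance, inferInstance, inferInstance,
    inferInstance, hC0, AdjoinRoot.root (tamePoly x c e), T.hinj₁, T.transcendental_s hx, T.hs,
    tameGoodBasisStatement A E _ x c e ζ _ σ T hx ϖ hϖ hGB,
    tameUnramStatement A E _ x c e ζ _ σ T ϖ hϖ hx hT,
    fun z hz => T.gaussClosure_lift hz, ?_⟩
  intro y s₁ hs₁ b₁ hb₁ hc₁
  refine ⟨prPoly c e s₁, outsideMax_prPoly T.he hs₁, T.pr b₁, T.chartClosure_pr hb₁, ?_⟩
  have h1 := T.piDvdSet_pr hx hϖ hc₁
  rwa [T.pr_sub, T.pr_mul_algebraMap, T.pr_aeval] at h1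

/-- **KL-N-TAME, full form**, unconditional. -/
theorem normalityAtFull : Fermat.Agent.H91.KLNorm.NormalityAtFullStatement :=
  Fermat.Agent.H91.KLNorm.normalityAtFull_of_cover tameCover

end Fermat.Agent.H70.KL
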