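import Mathlib

/-!
# KL-N-TAME (row 396), part 2 : the averaging operator of a tame Kummer layer (helper70)

Mathlib only.  `TameSetup x c e ζ s σ` : `E₁ = E[s]`, `s ^ e = x - c`, `σ s = ζ s`.
`T.Av` : average over the cyclic group generated by `σ`; `T.pr : E₁ → E` the projection
(coefficient of `s ^ 0`); `prPoly` its polynomial form; integrality transfers.
-/

set_option autoImplicit false
set_option linter.style.haveILetI false
set_option linter.unusedSectionVars false

noncomputable section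

namespace Fermat.Agent.H70.KL

open Polynomial

variable {A E E₁ : Type*} [CommRing A] [IsDomain A] [Field E] [Field E₁]
  [Algebra A E] [Algebra E E₁] [Algebra A E₁] [IsScalarTower A E E₁]

/-- The data of a tame Kummer layer `E₁ = E[s]`, `s ^ e = x - c`, with the automorphism
`σ : s ↦ ζ s`. -/
structure TameSetup (x : E) (c : A) (e : ℕ) (ζ : A) (s : E₁) (σ : E₁ →ₐ[E] E₁) : Prop where
  he : 0 < e
  hζ : IsPrimitiveRoot ζ e
  heU : IsUnit ((e : ℕ) : A)
  hs : s ^ e = algebraMap E E₁ (x - algebraMap A E c)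
  hgen : ∀ Y : E₁, ∃ P : E[X], Y = aeval s P
  hσ : σ s = algebraMap A E₁ ζ * s
  hinj : Function.Injective (algebraMap A E)
  hxc : x - algebraMap A E c ≠ 0

namespace TameSetup

variable {x : E} {c : A} {e : ℕ} {ζ : A} {s : E₁} {σ : E₁ →ₐ[E] E₁}
  (T : TameSetup x c e ζ s σ)

include T

theorem hinj₁ : Function.Injective (algebraMap A E₁) := by
  rw [IsScalarTower.algebraMap_eq A E E₁]
  exact (algebraMap E E₁).injective.comp T.hinj

theorem s_ne_zero : s ≠ 0 := by
  intro h0
  have := T.hs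
  rw [h0, zero_pow T.he.ne'] at this
  exact T.hxc ((_root_.map_eq_zero _).mp this.symm)

theorem sigma_pow_s (i : ℕ) : (σ ^ i) s = algebraMap A E₁ (ζ ^ i) * s := by
  induction i with
  | zero => simp
  | succ i ih =>
    rw [pow_succ', AlgHom.mul_apply, ih, map_mul, T.hσ, pow_succ, map_mul]
    have : σ (algebraMap A E₁ (ζ ^ i)) = algebraMap A E₁ (ζ ^ i) := by
      rw [IsScalarTower.algebraMap_apply A E E₁, AlgHom.commutes]
    rw [this]
    ring

theorem sigma_pow_algebraMap (i : ℕ) (a : E) : (σ ^ i) (algebraMap E E₁ a) = algebraMap E E₁ a :=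
  AlgHom.commutes _ _

theorem sigma_pow_algebraMapA (i : ℕ) (a : A) :
    (σ ^ i) (algebraMap A E₁ a) = algebraMap A E₁ a := by
  rw [IsScalarTower.algebraMap_apply A E E₁, AlgHom.commutes]

theorem zeta_pow_e : ζ ^ e = 1 := T.hζ.pow_eq_one

/-- `σ ^ e = id`. -/
theorem sigma_pow_e (Y : E₁) : (σ ^ e) Y = Y := by
  obtain ⟨P, rfl⟩ := T.hgen Y
  rw [← Polynomial.aeval_algHom_apply, T.sigma_pow_s, T.zeta_pow_e, map_one, one_mul]

/-- The inverse of `e` in `A`. -/
def einv (_T : TameSetup x c e ζ s σ) : A := ((_T.heU.unit⁻¹ : Aˣ) : A)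

theorem e_mul_einv : ((e : ℕ) : A) * T.einv = 1 := by
  unfold einv
  exact IsUnit.mul_val_inv T.heU

/-- The averaging operator over `⟨σ⟩`. -/
def Av (_T : TameSetup x c e ζ s σ) (Y : E₁) : E₁ :=
  algebraMap A E₁ _T.einv * ∑ i ∈ Finset.range e, (σ ^ i) Y

theorem Av_add (Y Z : E₁) : T.Av (Y + Z) = T.Av Y + T.Av Z := by
  simp only [Av, map_add, Finset.sum_add_distrib, mul_add]

theorem Av_zero : T.Av 0 = 0 := by
  simp [Av]

theorem Av_sum {ι : Type*} (S : Finset ι) (f : ι → E₁) :
    T.Av (∑ i ∈ S, f i) = ∑ i ∈ S, T.Av (f i) := by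
  classical
  induction S using Finset.induction_on with
  | empty => simp [T.Av_zero]
  | insert a S ha ih => rw [Finset.sum_insert ha, Finset.sum_insert ha, T.Av_add, ih]

theorem Av_algebraMap_mul (a : E) (Y : E₁) :
    T.Av (algebraMap E E₁ a * Y) = algebraMap E E₁ a * T.Av Y := by
  simp only [Av, map_mul, T.sigma_pow_algebraMap, ← Finset.mul_sum]
  ring

theorem Av_mul_algebraMap (a : E) (Y : E₁) :
    T.Av (Y * algebraMap E E₁ a) = T.Av Y * algebraMap E E₁ a := by
  rw [mul_comm, T.Av_algebraMap_mul, mul_comm]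

theorem Av_algebraMapA_mul (a : A) (Y : E₁) :
    T.Av (algebraMap A E₁ a * Y) = algebraMap A E₁ a * T.Av Y := by
  rw [IsScalarTower.algebraMap_apply A E E₁, T.Av_algebraMap_mul]

/-- Geometric sums of roots of unity. -/
theorem geom_sum_zeta (k : ℕ) :
    ∑ i ∈ Finset.range e, (ζ ^ i) ^ k = if e ∣ k then ((e : ℕ) : A) else 0 := by
  split_ifs with h
  · obtain ⟨m, rfl⟩ := h
    have : ∀ i ∈ Finset.range e, (ζ ^ i) ^ (e * m) = 1 := by
      intro i _
      rw [← pow_mul, show i * (e * m) = e * (i * m) by ring, pow_mul, T.zeta_pow_e, one_pow]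
    rw [Finset.sum_congr rfl this]
    simp
  · have hne : ζ ^ k ≠ 1 := by
      intro h1
      exact h ((T.hζ.pow_eq_one_iff_dvd k).mp h1)
    have hsum : (∑ i ∈ Finset.range e, (ζ ^ k) ^ i) * (ζ ^ k - 1) = 0 := by
      rw [geom_sum_mul, ← pow_mul, mul_comm, pow_mul, T.zeta_pow_e, one_pow, sub_self]
    have := (mul_eq_zero.mp hsum).resolve_right (sub_ne_zero.mpr hne)
    rw [← this]
    refine Finset.sum_congr rfl fun i _ => ?_
    rw [← pow_mul, ← pow_mul, mul_comm]

theorem Av_pow (k : ℕ) : T.Av (s ^ k) = if e ∣ k then s ^ k else 0 := by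
  have h1 : ∀ i ∈ Finset.range e, (σ ^ i) (s ^ k) = algebraMap A E₁ ((ζ ^ i) ^ k) * s ^ k := by
    intro i _
    rw [map_pow, T.sigma_pow_s, mul_pow, map_pow, map_pow, map_pow]
  rw [Av, Finset.sum_congr rfl h1, ← Finset.sum_mul, ← map_sum, T.geom_sum_zeta]
  split_ifs with h
  · rw [← mul_assoc, ← map_mul, mul_comm T.einv, T.e_mul_einv, map_one, one_mul]
  · simp

theorem s_pow_mul (j : ℕ) : s ^ (e * j) = algebraMap E E₁ ((x - algebraMap A E c) ^ j) := by
  rw [pow_mul, T.hs, map_pow]

theorem Av_one : T.Av 1 = 1 := by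
  have := T.Av_pow 0
  simpa using this

theorem Av_algebraMap (a : E) : T.Av (algebraMap E E₁ a) = algebraMap E E₁ a := by
  have := T.Av_algebraMap_mul a 1
  rwa [mul_one, T.Av_one, mul_one] at this

/-- The average lies in `E`. -/
theorem Av_mem_range (Y : E₁) : ∃ a : E, T.Av Y = algebraMap E E₁ a := by
  classical
  obtain ⟨P, rfl⟩ := T.hgen Y
  induction P using Polynomial.induction_on' with
  | add p q hp hq =>
    obtain ⟨a, ha⟩ := hp
    obtain ⟨b, hb⟩ := hq
    exact ⟨a + b, by rw [map_add, T.Av_add, ha, hb, map_add]⟩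
  | monomial n a =>
    rw [aeval_monomial, T.Av_algebraMap_mul, T.Av_pow]
    split_ifs with h
    · obtain ⟨j, rfl⟩ := h
      exact ⟨a * (x - algebraMap A E c) ^ j, by rw [T.s_pow_mul, map_mul]⟩
    · exact ⟨0, by simp⟩

/-- The projection `E₁ → E` (the coefficient of `s ^ 0`). -/
def pr (_T : TameSetup x c e ζ s σ) (Y : E₁) : E := Classical.choose (_T.Av_mem_range Y)

theorem algebraMap_pr (Y : E₁) : algebraMap E E₁ (T.pr Y) = T.Av Y :=
  (Classical.choose_spec (T.Av_mem_range Y)).symm

theorem pr_eq_iff (Y : E₁) (a : E) : T.pr Y = a ↔ T.Av Y = algebraMap E E₁ a := by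
  rw [← T.algebraMap_pr]
  exact ⟨fun h => by rw [h], fun h => (algebraMap E E₁).injective h⟩

theorem pr_algebraMap (a : E) : T.pr (algebraMap E E₁ a) = a := by
  rw [T.pr_eq_iff, T.Av_algebraMap]

theorem pr_add (Y Z : E₁) : T.pr (Y + Z) = T.pr Y + T.pr Z := by
  rw [T.pr_eq_iff, T.Av_add, map_add, T.algebraMap_pr, T.algebraMap_pr]

theorem pr_zero : T.pr 0 = 0 := by
  rw [T.pr_eq_iff, T.Av_zero, map_zero]

theorem pr_sum {ι : Type*} (S : Finset ι) (f : ι → E₁) :
    T.pr (∑ i ∈ S, f i) = ∑ i ∈ S, T.pr (f i) := by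
  rw [T.pr_eq_iff, T.Av_sum, map_sum]
  exact Finset.sum_congr rfl fun i _ => (T.algebraMap_pr _).symm

theorem pr_algebraMap_mul (a : E) (Y : E₁) : T.pr (algebraMap E E₁ a * Y) = a * T.pr Y := by
  rw [T.pr_eq_iff, T.Av_algebraMap_mul, map_mul, T.algebraMap_pr]

theorem pr_mul_algebraMap (a : E) (Y : E₁) : T.pr (Y * algebraMap E E₁ a) = T.pr Y * a := by
  rw [mul_comm, T.pr_algebraMap_mul, mul_comm]

theorem pr_algebraMapA_mul (a : A) (Y : E₁) :
    T.pr (algebraMap A E₁ a * Y) = algebraMap A E a * T.pr Y := by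
  rw [IsScalarTower.algebraMap_apply A E E₁, T.pr_algebraMap_mul]

end TameSetup

/-- The polynomial version of the projection: `X ^ (e j) ↦ (X - c) ^ j`, other monomials to `0`. -/
def prPoly (c : A) (e : ℕ) : A[X] →ₗ[A] A[X] :=
  (Polynomial.basisMonomials A).constr A (fun m => if e ∣ m then (X - C c) ^ (m / e) else 0)

omit [IsDomain A] in
theorem prPoly_monomial (c : A) (e : ℕ) (m : ℕ) (a : A) :
    prPoly c e (monomial m a) = if e ∣ m then C a * (X - C c) ^ (m / e) else 0 := by
  have h1 : (monomial m a : A[X]) = a • (Polynomial.basisMonomials A) m := by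
    rw [Polynomial.coe_basisMonomials, Polynomial.smul_monomial, smul_eq_mul, mul_one]
  rw [h1, map_smul, prPoly, Module.Basis.constr_basis]
  split_ifs
  · rw [Polynomial.smul_eq_C_mul]
  · rw [smul_zero]

omit [IsDomain A] in
theorem prPoly_one (c : A) {e : ℕ} : prPoly c e 1 = 1 := by
  have : (1 : A[X]) = monomial 0 1 := by simp
  rw [this, prPoly_monomial]
  simp

omit [IsDomain A] in
theorem eval_prPoly (c : A) {e : ℕ} (he : 0 < e) (R : A[X]) :
    (prPoly c e R).eval c = R.eval 0 := by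
  induction R using Polynomial.induction_on' with
  | add p q hp hq => rw [map_add, eval_add, eval_add, hp, hq]
  | monomial m a =>
    rw [prPoly_monomial]
    split_ifs with h
    · rcases Nat.eq_zero_or_pos m with rfl | hm
      · simp
      · have h1 : 0 < m / e := Nat.div_pos (Nat.le_of_dvd hm h) he
        simp [eval_monomial, h1.ne', hm.ne']
    · have hm : m ≠ 0 := by
        rintro rfl; exact h (dvd_zero _)
      simp [eval_monomial, hm]

namespace TameSetup

variable {x : E} {c : A} {e : ℕ} {ζ : A} {s : E₁} {σ : E₁ →ₐ[E] E₁}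
  (T : TameSetup x c e ζ s σ)

include T

theorem pr_pow (m : ℕ) :
    T.pr (s ^ m) = if e ∣ m then (x - algebraMap A E c) ^ (m / e) else 0 := by
  rw [T.pr_eq_iff, T.Av_pow]
  split_ifs with h
  · obtain ⟨j, rfl⟩ := h
    rw [Nat.mul_div_cancel_left _ T.he, T.s_pow_mul]
  · rw [map_zero]

theorem pr_aeval (R : A[X]) : T.pr (aeval s R) = aeval x (prPoly c e R) := by
  induction R using Polynomial.induction_on' with
  | add p q hp hq => rw [map_add, T.pr_add, hp, hq, map_add, map_add]
  | monomial m a =>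
    rw [aeval_monomial, T.pr_algebraMapA_mul, T.pr_pow, prPoly_monomial]
    split_ifs with h
    · simp
    · simp

/-- `ι (R(x)) = (R ∘ (X ^ e + c))(s)`. -/
theorem algebraMap_aeval (R : A[X]) :
    algebraMap E E₁ (aeval x R) = aeval s (R.comp (X ^ e + C c)) := by
  have hx' : algebraMap E E₁ x = s ^ e + algebraMap A E₁ c := by
    rw [T.hs, map_sub, ← IsScalarTower.algebraMap_apply A E E₁]
    ring
  rw [Polynomial.aeval_comp, map_add, map_pow, aeval_X, aeval_C, ← hx',
    ← Polynomial.aeval_algebraMap_apply]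

/-- `σ ^ i (P(s)) = (P ∘ (ζ ^ i X))(s)`. -/
theorem sigma_pow_aeval (i : ℕ) (P : A[X]) :
    (σ ^ i) (aeval s P) = aeval s (P.comp (C (ζ ^ i) * X)) := by
  have h1 := Polynomial.aeval_algHom_apply ((σ ^ i).restrictScalars A) s P
  simp only [AlgHom.coe_restrictScalars'] at h1
  rw [← h1, Polynomial.aeval_comp, map_mul, aeval_C, aeval_X, T.sigma_pow_s]

theorem transcendental_s (hx : Transcendental A x) : Transcendental A s := by
  intro hs
  apply hx
  have h1 : IsAlgebraic A (s ^ e + algebraMap A E₁ c) :=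
    (hs.pow e).add (isAlgebraic_algebraMap c)
  have hx' : algebraMap E E₁ x = s ^ e + algebraMap A E₁ c := by
    rw [T.hs, map_sub, ← IsScalarTower.algebraMap_apply A E E₁]
    ring
  rw [← hx'] at h1
  exact (isAlgebraic_algebraMap_iff (algebraMap E E₁).injective).mp h1

end TameSetup

/-! ### Integrality in ring-hom form -/

section IntegralElem

variable {R S U : Type*} [CommRing R] [CommRing S] [CommRing U]

theorem isIntegralElem_of_comp (g : S →+* U) (θ : R →+* S) {Y : U}
    (h : (g.comp θ).IsIntegralElem Y) : g.IsIntegralElem Y := by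
  obtain ⟨p, hp, hpY⟩ := h
  exact ⟨p.map θ, hp.map θ, by rw [Polynomial.eval₂_map]; exact hpY⟩

theorem isIntegralElem_map_hom (f : R →+* S) (j : S →+* U) {y : S}
    (h : f.IsIntegralElem y) : (j.comp f).IsIntegralElem (j y) := by
  obtain ⟨p, hp, hpy⟩ := h
  exact ⟨p, hp, by rw [← Polynomial.hom_eval₂, hpy, map_zero]⟩

theorem isIntegralElem_sum (f : R →+* S) {ι : Type*} (F : Finset ι) (Y : ι → S)
    (h : ∀ i ∈ F, f.IsIntegralElem (Y i)) : f.IsIntegralElem (∑ i ∈ F, Y i) := by
  classical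
  induction F using Finset.induction_on with
  | empty =>
    rw [Finset.sum_empty]
    have := f.isIntegralElem_map (x := 0)
    rwa [map_zero] at this
  | insert a F ha ih =>
    rw [Finset.sum_insert ha]
    exact RingHom.IsIntegralElem.add f (h a (Finset.mem_insert_self _ _))
      (ih fun i hi => h i (Finset.mem_insert_of_mem hi))

end IntegralElem

/-- Integrality over `A[s]`, in ring-hom form. -/
abbrev evalHom (A : Type*) [CommRing A] {B : Type*} [CommRing B] [Algebra A B] (b : B) :
    A[X] →+* B := ((aeval b : A[X] →ₐ[A] B) : A[X] →+* B)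

namespace TameSetup

variable {x : E} {c : A} {e : ℕ} {ζ : A} {s : E₁} {σ : E₁ →ₐ[E] E₁}
  (T : TameSetup x c e ζ s σ)

include T

theorem intS_algebraMap {y : E} (h : (evalHom A x).IsIntegralElem y) :
    (evalHom A s).IsIntegralElem (algebraMap E E₁ y) := by
  have h1 := isIntegralElem_map_hom (evalHom A x) (algebraMap E E₁) h
  have h2 : (algebraMap E E₁).comp (evalHom A x) =
      (evalHom A s).comp (Polynomial.compRingHom (X ^ e + C c)) := by
    apply RingHom.ext
    intro R
    exact T.algebraMap_aeval R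
  rw [h2] at h1
  exact isIntegralElem_of_comp _ _ h1

theorem intS_sigma_pow (i : ℕ) {Y : E₁} (h : (evalHom A s).IsIntegralElem Y) :
    (evalHom A s).IsIntegralElem ((σ ^ i) Y) := by
  have h1 := isIntegralElem_map_hom (evalHom A s) ((σ ^ i : E₁ →ₐ[E] E₁) : E₁ →+* E₁) h
  have h2 : ((σ ^ i : E₁ →ₐ[E] E₁) : E₁ →+* E₁).comp (evalHom A s) =
      (evalHom A s).comp (Polynomial.compRingHom (C (ζ ^ i) * X)) := by
    apply RingHom.ext
    intro R
    exact T.sigma_pow_aeval i R
  rw [h2] at h1
  exact isIntegralElem_of_comp _ _ h1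

theorem intS_Av {Y : E₁} (h : (evalHom A s).IsIntegralElem Y) :
    (evalHom A s).IsIntegralElem (T.Av Y) := by
  unfold Av
  apply RingHom.IsIntegralElem.mul
  · have := (evalHom A s).isIntegralElem_map (x := C T.einv)
    simpa [evalHom] using this
  · exact isIntegralElem_sum _ _ _ fun i _ => T.intS_sigma_pow i h

/-- Descent of integrality along the projection. -/
theorem intX_of_intS {a : E} (h : (evalHom A s).IsIntegralElem (algebraMap E E₁ a)) :
    (evalHom A x).IsIntegralElem a := by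
  classical
  obtain ⟨q, hqm, hq⟩ := h
  set n := q.natDegree with hn
  set q' : A[X][X] := ∑ k ∈ Finset.range (n + 1), monomial k (prPoly c e (q.coeff k)) with hq'
  have hcoeff : ∀ k, k ≤ n → q'.coeff k = prPoly c e (q.coeff k) := by
    intro k hk
    rw [hq', Polynomial.finsetSum_coeff]
    simp only [Polynomial.coeff_monomial]
    rw [Finset.sum_ite_eq']
    rw [if_pos (Finset.mem_range.mpr (Nat.lt_succ_of_le hk))]
  have hdeg : q'.natDegree ≤ n := by
    rw [hq']
    apply Polynomial.natDegree_sum_le_of_forall_le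
    intro k hk
    exact (Polynomial.natDegree_monomial_le _).trans (Nat.lt_succ_iff.mp (Finset.mem_range.mp hk))
  refine ⟨q', ?_, ?_⟩
  · apply Polynomial.monic_of_natDegree_le_of_coeff_eq_one n hdeg
    rw [hcoeff n le_rfl, hn]
    have : q.coeff q.natDegree = 1 := hqm
    rw [this, prPoly_one]
  · rw [hq', Polynomial.eval₂_finsetSum]
    simp only [Polynomial.eval₂_monomial]
    have h1 : q.eval₂ (evalHom A s) (algebraMap E E₁ a) =
        ∑ k ∈ Finset.range (n + 1), evalHom A s (q.coeff k) * algebraMap E E₁ a ^ k :=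
      Polynomial.eval₂_eq_sum_range _ _
    rw [hq] at h1
    have h2 := congrArg T.pr h1
    rw [T.pr_zero, T.pr_sum] at h2
    rw [h2]
    refine Finset.sum_congr rfl fun k _ => ?_
    have h3 : evalHom A s (q.coeff k) * algebraMap E E₁ a ^ k =
        aeval s (q.coeff k) * algebraMap E E₁ (a ^ k) := by
      rw [map_pow]; rfl
    rw [h3, T.pr_mul_algebraMap, T.pr_aeval]
    rfl

theorem intX_pr {Y : E₁} (h : (evalHom A s).IsIntegralElem Y) :
    (evalHom A x).IsIntegralElem (T.pr Y) := by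
  apply T.intX_of_intS
  rw [T.algebraMap_pr]
  exact T.intS_Av h

end TameSetup

end Fermat.Agent.H70.KL
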