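import Fermat.Agent.H70.KL.TameAvg

/-!
# KL-N-TAME (row 396), part 3 : norm and Fourier inversion in a tame Kummer layer (helper70)

Mathlib only (on top of `TameAvg`).
* `T.Nm Y = ∏ i < e, σ ^ i Y`, `normPoly ζ e P = ∏ i < e, P (ζ ^ i X)`,
  `T.algebraMap_aeval_normPoly : ι ((prPoly c e (normPoly ζ e P))(x)) = ∏ i < e, σ ^ i (P(s))`;
* `T.C_dvd_of_C_dvd_normPoly` : the norm of a polynomial not divisible by `ϖ` is not divisible
  by `ϖ`;
* `T.fourier : Y = ∑ m < e, (s ^ m)⁻¹ * Av (s ^ m * Y)`.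
-/

set_option autoImplicit false
set_option linter.style.haveILetI false
set_option linter.unusedSectionVars false

noncomputable section

namespace Fermat.Agent.H70.KL

open Polynomial

variable {A E E₁ : Type*} [CommRing A] [IsDomain A] [Field E] [Field E₁]
  [Algebra A E] [Algebra E E₁] [Algebra A E₁] [IsScalarTower A E E₁]

/-- The product of the nontrivial conjugates `P (ζ ^ (i + 1) X)`, `i < e - 1`. -/
def conjPoly (ζ : A) (e : ℕ) (P : A[X]) : A[X] :=
  ∏ i ∈ Finset.range (e - 1), P.comp (C (ζ ^ (i + 1)) * X)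

/-- The norm polynomial `∏ i < e, P (ζ ^ i X)`. -/
def normPoly (ζ : A) (e : ℕ) (P : A[X]) : A[X] :=
  ∏ i ∈ Finset.range e, P.comp (C (ζ ^ i) * X)

omit [IsDomain A] in
theorem normPoly_eq (ζ : A) {e : ℕ} (he : 0 < e) (P : A[X]) :
    normPoly ζ e P = P * conjPoly ζ e P := by
  obtain ⟨k, rfl⟩ : ∃ k, e = k + 1 := ⟨e - 1, by omega⟩
  rw [normPoly, conjPoly, Finset.prod_range_succ', Nat.add_sub_cancel, mul_comm]
  simp

namespace TameSetup

variable {x : E} {c : A} {e : ℕ} {ζ : A} {s : E₁} {σ : E₁ →ₐ[E] E₁}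
  (T : TameSetup x c e ζ s σ)

include T

/-- The norm `∏ i < e, σ ^ i Y`. -/
def Nm (_T : TameSetup x c e ζ s σ) (Y : E₁) : E₁ := ∏ i ∈ Finset.range e, (σ ^ i) Y

theorem Nm_zero : T.Nm 0 = 0 := by
  unfold Nm
  exact Finset.prod_eq_zero (Finset.mem_range.mpr T.he) (by simp)

theorem sigma_Nm (Y : E₁) : σ (T.Nm Y) = T.Nm Y := by
  by_cases hY : Y = 0
  · rw [hY, T.Nm_zero, map_zero]
  unfold Nm
  rw [map_prod]
  have h1 : ∀ i ∈ Finset.range e, σ ((σ ^ i) Y) = (σ ^ (i + 1)) Y := by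
    intro i _
    rw [pow_succ', AlgHom.mul_apply]
  rw [Finset.prod_congr rfl h1]
  have h2 := Finset.prod_range_succ' (fun i => (σ ^ i) Y) e
  have h3 := Finset.prod_range_succ (fun i => (σ ^ i) Y) e
  rw [h3] at h2
  simp only [T.sigma_pow_e, pow_zero, AlgHom.one_apply] at h2
  exact (mul_right_cancel₀ hY h2).symm

theorem sigma_pow_Nm (i : ℕ) (Y : E₁) : (σ ^ i) (T.Nm Y) = T.Nm Y := by
  induction i with
  | zero => simp
  | succ i ih => rw [pow_succ, AlgHom.mul_apply, T.sigma_Nm, ih]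

theorem Av_Nm (Y : E₁) : T.Av (T.Nm Y) = T.Nm Y := by
  unfold Av
  rw [Finset.sum_congr rfl (fun i _ => T.sigma_pow_Nm i Y), Finset.sum_const, Finset.card_range,
    nsmul_eq_mul, ← mul_assoc]
  have h1 : ((e : ℕ) : E₁) = algebraMap A E₁ ((e : ℕ) : A) := by simp
  rw [h1, ← map_mul, mul_comm T.einv, T.e_mul_einv, map_one, one_mul]

theorem algebraMap_pr_Nm (Y : E₁) : algebraMap E E₁ (T.pr (T.Nm Y)) = T.Nm Y := by
  rw [T.algebraMap_pr, T.Av_Nm]

theorem Nm_ne_zero {Y : E₁} (hY : Y ≠ 0) : T.Nm Y ≠ 0 := by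
  unfold Nm
  rw [Finset.prod_ne_zero_iff]
  intro i _
  exact (_root_.map_ne_zero _).mpr hY

theorem aeval_normPoly (P : A[X]) : aeval s (normPoly ζ e P) = T.Nm (aeval s P) := by
  unfold Nm normPoly
  rw [map_prod]
  exact Finset.prod_congr rfl fun i _ => (T.sigma_pow_aeval i P).symm

/-- `ι (n₀(x)) = N(P(s))` for `n₀ = prPoly (normPoly P)`. -/
theorem algebraMap_aeval_normPoly (P : A[X]) :
    algebraMap E E₁ (aeval x (prPoly c e (normPoly ζ e P))) = T.Nm (aeval s P) := by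
  rw [← T.pr_aeval, T.aeval_normPoly, T.algebraMap_pr_Nm]

/-- `P(s) * P'(s) = ι (n₀(x))`. -/
theorem aeval_mul_conjPoly (P : A[X]) :
    aeval s P * aeval s (conjPoly ζ e P) =
      algebraMap E E₁ (aeval x (prPoly c e (normPoly ζ e P))) := by
  rw [T.algebraMap_aeval_normPoly, ← T.aeval_normPoly, normPoly_eq ζ T.he, map_mul]

theorem aeval_normPoly_ne_zero {P : A[X]} (hP : aeval s P ≠ 0) :
    aeval x (prPoly c e (normPoly ζ e P)) ≠ 0 := by
  intro h0
  have := T.algebraMap_aeval_normPoly P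
  rw [h0, map_zero] at this
  exact T.Nm_ne_zero hP this.symm

theorem isUnit_zeta_pow (k : ℕ) : IsUnit (ζ ^ k) := by
  have h : IsUnit ζ := by
    apply IsUnit.of_pow_eq_one T.zeta_pow_e T.he.ne'
  exact h.pow k

/-- The norm of a polynomial which is not divisible by the prime `ϖ` is not divisible by `ϖ`. -/
theorem C_dvd_of_C_dvd_normPoly (hx : Transcendental A x) {ϖ : A} (hϖ : Prime ϖ) {P : A[X]}
    (h : C ϖ ∣ prPoly c e (normPoly ζ e P)) : C ϖ ∣ P := by
  have hs := T.transcendental_s hx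
  have hinj : Function.Injective (aeval s : A[X] →ₐ[A] E₁) := transcendental_iff_injective.mp hs
  have h1 : (prPoly c e (normPoly ζ e P)).comp (X ^ e + C c) = normPoly ζ e P := by
    apply hinj
    rw [← T.algebraMap_aeval, T.algebraMap_aeval_normPoly, T.aeval_normPoly]
  have h2 : C ϖ ∣ normPoly ζ e P := by
    rw [← h1]
    obtain ⟨q, hq⟩ := h
    exact ⟨q.comp (X ^ e + C c), by rw [hq, mul_comp, C_comp]⟩
  have hp : Prime (C ϖ : A[X]) := (Polynomial.prime_C_iff).mpr hϖ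
  unfold normPoly at h2
  obtain ⟨i, -, hi⟩ := (Prime.dvd_finsetProd_iff hp _).mp h2
  rw [C_dvd_iff_dvd_coeff] at hi ⊢
  intro k
  have := hi k
  rw [Polynomial.comp_C_mul_X_coeff] at this
  exact ((T.isUnit_zeta_pow i).pow k).dvd_mul_right.mp this

/-- **Fourier inversion** over the group generated by `σ`. -/
theorem fourier (Y : E₁) :
    Y = ∑ m ∈ Finset.range e, (s ^ m)⁻¹ * T.Av (s ^ m * Y) := by
  have hs0 := T.s_ne_zero
  have h1 : ∀ m ∈ Finset.range e, (s ^ m)⁻¹ * T.Av (s ^ m * Y) =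
      algebraMap A E₁ T.einv * ∑ i ∈ Finset.range e, algebraMap A E₁ ((ζ ^ m) ^ i) * (σ ^ i) Y := by
    intro m _
    unfold Av
    rw [mul_left_comm, Finset.mul_sum]
    congr 1
    refine Finset.sum_congr rfl fun i _ => ?_
    rw [map_mul, map_pow, T.sigma_pow_s, mul_pow, ← map_pow, ← pow_mul, ← pow_mul, mul_comm m i]
    field_simp
  rw [Finset.sum_congr rfl h1, ← Finset.mul_sum, Finset.sum_comm]
  have h2 : ∀ i ∈ Finset.range e, ∑ m ∈ Finset.range e, algebraMap A E₁ ((ζ ^ m) ^ i) * (σ ^ i) Y =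
      if i = 0 then algebraMap A E₁ ((e : ℕ) : A) * Y else 0 := by
    intro i hi
    rw [← Finset.sum_mul, ← map_sum, T.geom_sum_zeta]
    have hi' : i < e := Finset.mem_range.mp hi
    by_cases h0 : i = 0
    · subst h0
      simp
    · rw [if_neg h0, if_neg (fun hd => h0 (Nat.eq_zero_of_dvd_of_lt hd hi')), map_zero, zero_mul]
  rw [Finset.sum_congr rfl h2, Finset.sum_ite_eq' (Finset.range e) 0,
    if_pos (Finset.mem_range.mpr T.he), ← mul_assoc, ← map_mul, mul_comm T.einv, T.e_mul_einv,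
    map_one, one_mul]

/-- Fourier inversion in terms of the projection. -/
theorem fourier_pr (Y : E₁) :
    Y = ∑ m ∈ Finset.range e, (s ^ m)⁻¹ * algebraMap E E₁ (T.pr (s ^ m * Y)) := by
  conv_lhs => rw [T.fourier Y]
  exact Finset.sum_congr rfl fun m _ => by rw [T.algebraMap_pr]

theorem eq_zero_of_pr_eq_zero {Y : E₁} (h : ∀ m < e, T.pr (s ^ m * Y) = 0) : Y = 0 := by
  rw [T.fourier_pr Y]
  refine Finset.sum_eq_zero fun m hm => ?_
  rw [h m (Finset.mem_range.mp hm), map_zero, mul_zero]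

end TameSetup

end Fermat.Agent.H70.KL
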