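import Fermat.Agent.H70.KL.NormalityCore
import Fermat.Agent.H67.KummerIrr
import Fermat.Agent.H87.KL.TameUnram
import Fermat.Agent.H73.KLTameGB
import Fermat.Agent.H91.KLNorm.Adapter

/-!
# KL-N-TAME (row 396) : `NormalityAtStatement` (helper70)

* `normalityAt_of_purity : PurityStatement → NormalityAtStatement` (the row target; the other two
  inputs of the row, Lemma T and the Gauss closure statement, are not needed);
* `normalityAt : NormalityAtStatement` (unconditional, with helper91's purity theorem).

Ingredients: averaging over `μ_e` (`TameAvg`, `TameNorm`, `TameGauss`, `NormalityCore`),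
irreducibility of the Kummer polynomial (helper67, row 571), Abhyankar's lemma (helper87/helper3,
row 572), good basis of the tame layer (helper73, row 573).
-/

set_option autoImplicit false

namespace Fermat.Agent.H70.KL

open Polynomial Fermat.Agent.H22.KL

theorem kummerIrrStatement : KummerIrrStatement := fun _ _ _ he _ hζ _ ha =>
  Fermat.Agent.H67.KummerIrr.X_pow_sub_C_irreducible_of_primitiveRoot he hζ ha

theorem tameUnramStatement : TameUnramStatement :=
  fun _ _ _ _ _ _ _ _ _ _ _ _ _ _ _ _ _ _ _ T ϖ _ _ hT =>
    Fermat.Agent.H87.KL.unramifiedNear_of_tameNear T ϖ hT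

theorem tameGoodBasisStatement : TameGoodBasisStatement :=
  fun _ _ _ _ _ _ _ _ _ _ _ _ _ _ _ _ _ _ T hx _ hϖ h =>
    Fermat.Agent.H73.KLTameGB.goodBasis_lift T hx hϖ h

/-- **KL-N-TAME (row 396)**: purity implies the local normality statement. -/
theorem normalityAt_of_purity (hP : PurityStatement) : NormalityAtStatement :=
  normalityAt_of_parts kummerIrrStatement tameUnramStatement tameGoodBasisStatement hP

/-- The row-396 target in its announced shape. -/
theorem normalityAt_of (hP : PurityStatement) (_hT : LemmaTStatement)
    (_hG : GaussClosureStatement) : NormalityAtStatement :=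
  normalityAt_of_purity hP

/-- **KL-NORM, local form**, unconditional. -/
theorem normalityAt : NormalityAtStatement :=
  normalityAt_of_purity Fermat.Agent.H91.KLNorm.purityStatement

end Fermat.Agent.H70.KL
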