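import Mathlib

/-!
# P-ES / KL-N-TAME (helper70): value groups of Kummer extensions of discrete valuation subrings

Mathlib only.  `O` is a valuation subring of a field `L`, `K → L` a subfield, `v = O ∩ K`
(hypothesis `hv : ∀ x, x ∈ v ↔ algebraMap K L x ∈ O`), everything is expressed with the
canonical valuation `O.valuation`.

* `IsDiscAt O π` : discreteness (`π ≠ 0`, value `< 1`, every value is a power of the value
  of `π`); `exists_isDiscAt` (a principal valuation subring `≠ ⊤` is discrete).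
* `kummer_step`, `kummer_value`, `kummer_value_field` : if `z ^ n = u` with `u` a unit of `v`
  and `n` a unit of `v`, the values of the elements of `K[z]` are powers of the value of a
  uniformiser `t` of `v` (`K[z] / K` is unramified at `O`).
* `unram_div_mem` : hence `t` is a uniformiser of `O` if `L = K[z]`.
* `ramified_value`, `ram_div_mem` : if moreover `s ^ e' = t z`, the values of `K[s]` are powers
  of the value of `s`, and `s` is a uniformiser of `O` if `L = K[s]`.
* `comap_isPrincipalIdealRing` : the restriction of a discrete valuation subring to a subfield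
  on which it is non-trivial is a principal ideal ring.
-/

set_option autoImplicit false
set_option linter.style.haveILetI false

noncomputable section

namespace Fermat.Agent.H70.KL

open Polynomial

variable {K L : Type*} [Field K] [Field L] [Algebra K L]

/-- Discreteness of a valuation subring, in terms of its canonical valuation. -/
def IsDiscAt (O : ValuationSubring L) (π : L) : Prop :=
  π ≠ 0 ∧ O.valuation π < 1 ∧ ∀ Y : L, Y ≠ 0 → ∃ k : ℤ, O.valuation Y = O.valuation π ^ k

/-- The restriction map `v → O` for `v = O ∩ K`. -/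
def resHom (O : ValuationSubring L) (v : ValuationSubring K)
    (hv : ∀ x : K, x ∈ v ↔ algebraMap K L x ∈ O) : ↥v →+* ↥O :=
  ((algebraMap K L).comp v.subtype).codRestrict O (fun x => (hv x).mp x.2)

@[simp]
theorem coe_resHom (O : ValuationSubring L) (v : ValuationSubring K)
    (hv : ∀ x : K, x ∈ v ↔ algebraMap K L x ∈ O) (x : ↥v) :
    ((resHom O v hv x : ↥O) : L) = algebraMap K L (x : K) := rfl

theorem val_pos_of_ne_zero (O : ValuationSubring L) {Y : L} (hY : Y ≠ 0) :
    0 < O.valuation Y := by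
  rw [Valuation.pos_iff]; exact hY

theorem val_eq_one_iff (O : ValuationSubring L) {Y : L} (hY : Y ≠ 0) :
    O.valuation Y = 1 ↔ (Y ∈ O ∧ Y⁻¹ ∈ O) := by
  constructor
  · intro h
    refine ⟨(O.valuation_le_one_iff _).mp h.le, (O.valuation_le_one_iff _).mp ?_⟩
    rw [map_inv₀, h, inv_one]
  · rintro ⟨h1, h2⟩
    have a1 := (O.valuation_le_one_iff _).mpr h1
    have a2 := (O.valuation_le_one_iff _).mpr h2
    rw [map_inv₀] at a2
    have := (inv_le_one₀ (val_pos_of_ne_zero O hY)).mp a2
    exact le_antisymm a1 this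

theorem isLocalHom_resHom (O : ValuationSubring L) (v : ValuationSubring K)
    (hv : ∀ x : K, x ∈ v ↔ algebraMap K L x ∈ O) : IsLocalHom (resHom O v hv) := by
  constructor
  intro a ha
  rw [ValuationSubring.valuation_eq_one_iff] at ha
  rw [ValuationSubring.valuation_eq_one_iff]
  rw [coe_resHom] at ha
  have ha0 : (a : K) ≠ 0 := by
    intro h0
    rw [h0, map_zero, map_zero] at ha
    exact zero_ne_one ha
  have hia0 : algebraMap K L (a : K) ≠ 0 := by
    intro h0
    rw [h0, map_zero] at ha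
    exact zero_ne_one ha
  rw [val_eq_one_iff v ha0]
  rw [val_eq_one_iff O hia0] at ha
  refine ⟨a.2, ?_⟩
  rw [hv, map_inv₀]
  exact ha.2

section Step

variable (O : ValuationSubring L) (v : ValuationSubring K)
  (hv : ∀ x : K, x ∈ v ↔ algebraMap K L x ∈ O)

/-- Reduction of an evaluation. -/
theorem residue_eval₂ (zO : ↥O) (Q : (↥v)[X]) :
    letI := isLocalHom_resHom O v hv
    IsLocalRing.residue ↥O (Q.eval₂ (resHom O v hv) zO) =
      (Q.map (IsLocalRing.residue ↥v)).eval₂ (IsLocalRing.ResidueField.map (resHom O v hv))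
        (IsLocalRing.residue ↥O zO) := by
  letI := isLocalHom_resHom O v hv
  rw [Polynomial.hom_eval₂, Polynomial.eval₂_map]
  congr 1

/-- **One step**: if `P(z)` is a non-unit at `O`, then `P(z) H(z) = t P₂(z)` with `H(z)` a unit. -/
theorem kummer_step (t : ↥v) (ht : ∀ y : ↥v, y ∈ IsLocalRing.maximalIdeal ↥v → t ∣ y)
    (n : ℕ) (hn : IsUnit ((n : ℕ) : ↥v))
    (u : ↥v) (hu : IsUnit u) (zO : ↥O) (hz : zO ^ n = resHom O v hv u)
    (P : (↥v)[X]) (hP : P.eval₂ (resHom O v hv) zO ∈ IsLocalRing.maximalIdeal ↥O) :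
    ∃ P₂ H : (↥v)[X], IsUnit (H.eval₂ (resHom O v hv) zO) ∧
      P.eval₂ (resHom O v hv) zO * H.eval₂ (resHom O v hv) zO =
        resHom O v hv t * P₂.eval₂ (resHom O v hv) zO := by
  classical
  letI := isLocalHom_resHom O v hv
  set φ := resHom O v hv with hφ
  set ψ := IsLocalRing.ResidueField.map φ with hψ
  set zb := IsLocalRing.residue ↥O zO with hzb
  set res := IsLocalRing.residue ↥v with hres
  have hredE : ∀ Q : (↥v)[X], IsLocalRing.residue ↥O (Q.eval₂ φ zO) = (Q.map res).eval₂ ψ zb :=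
    fun Q => residue_eval₂ O v hv zO Q
  -- the Kummer polynomial
  set f : (↥v)[X] := X ^ n - C u with hf
  have hfz : f.eval₂ φ zO = 0 := by
    simp only [hf, eval₂_sub, eval₂_pow, eval₂_X, eval₂_C, hz, sub_self]
  have hfb : f.map res = X ^ n - C (res u) := by
    simp [hf]
  have hsep : (f.map res).Separable := by
    rw [hfb]
    apply separable_X_pow_sub_C
    · have : (n : IsLocalRing.ResidueField ↥v) = res (n : ↥v) := by simp [hres]
      rw [this]
      intro h0
      rw [hres, IsLocalRing.residue_eq_zero_iff] at h0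
      exact (IsLocalRing.mem_maximalIdeal _).mp h0 hn
    · intro h0
      rw [hres, IsLocalRing.residue_eq_zero_iff] at h0
      exact (IsLocalRing.mem_maximalIdeal _).mp h0 hu
  have hPb : (P.map res).eval₂ ψ zb = 0 := by
    rw [← hredE, IsLocalRing.residue_eq_zero_iff]; exact hP
  have hfbz : (f.map res).eval₂ ψ zb = 0 := by
    rw [← hredE, hfz, map_zero]
  set g := EuclideanDomain.gcd (P.map res) (f.map res) with hg
  obtain ⟨qb, hqb⟩ : g ∣ P.map res := EuclideanDomain.gcd_dvd_left _ _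
  obtain ⟨hb, hhb⟩ : g ∣ f.map res := EuclideanDomain.gcd_dvd_right _ _
  have hgz : g.eval₂ ψ zb = 0 := by
    rw [hg, EuclideanDomain.gcd_eq_gcd_ab, eval₂_add, eval₂_mul, eval₂_mul, hPb, hfbz]
    simp
  have hcop : IsCoprime g hb := by
    rw [hhb] at hsep
    exact hsep.isCoprime
  have hhz : hb.eval₂ ψ zb ≠ 0 := by
    obtain ⟨a, b, hab⟩ := hcop
    intro h0
    have := congrArg (fun p => p.eval₂ ψ zb) hab
    simp only [eval₂_add, eval₂_mul, hgz, h0, mul_zero, add_zero, eval₂_one] at this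
    exact zero_ne_one this
  have hsurj : Function.Surjective (Polynomial.map res) :=
    Polynomial.map_surjective _ IsLocalRing.residue_surjective
  obtain ⟨G, hG⟩ := hsurj g
  obtain ⟨Qp, hQp⟩ := hsurj qb
  obtain ⟨H, hH⟩ := hsurj hb
  have hdiv : ∀ D : (↥v)[X], D.map res = 0 → C t ∣ D := by
    intro D hD
    rw [Polynomial.C_dvd_iff_dvd_coeff]
    intro i
    apply ht
    have h1 : (D.map res).coeff i = 0 := by rw [hD, coeff_zero]
    rw [coeff_map] at h1
    exact (IsLocalRing.residue_eq_zero_iff _).mp h1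
  obtain ⟨P₁, hP₁⟩ := hdiv (P - G * Qp) (by
    rw [Polynomial.map_sub, Polynomial.map_mul, hG, hQp, hqb, sub_self])
  obtain ⟨R, hR⟩ := hdiv (f - G * H) (by
    rw [Polynomial.map_sub, Polynomial.map_mul, hG, hH, hhb, sub_self])
  refine ⟨P₁ * H - R * Qp, H, ?_, ?_⟩
  · have : IsLocalRing.residue ↥O (H.eval₂ φ zO) ≠ 0 := by
      rw [hredE, hH]; exact hhz
    rw [Ne, IsLocalRing.residue_eq_zero_iff, IsLocalRing.mem_maximalIdeal] at this
    simpa [mem_nonunits_iff] using this
  · have e1 : P.eval₂ φ zO = G.eval₂ φ zO * Qp.eval₂ φ zO + φ t * P₁.eval₂ φ zO := by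
      have := congrArg (fun p => p.eval₂ φ zO) hP₁
      simp only [eval₂_sub, eval₂_mul, eval₂_C] at this
      linear_combination this
    have e2 : 0 = G.eval₂ φ zO * H.eval₂ φ zO + φ t * R.eval₂ φ zO := by
      have := congrArg (fun p => p.eval₂ φ zO) hR
      simp only [eval₂_sub, eval₂_mul, eval₂_C, hfz] at this
      linear_combination this
    simp only [eval₂_sub, eval₂_mul]
    linear_combination (H.eval₂ φ zO) * e1 - (Qp.eval₂ φ zO) * e2

end Step

section Value

variable (O : ValuationSubring L) (v : ValuationSubring K)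
  (hv : ∀ x : K, x ∈ v ↔ algebraMap K L x ∈ O)

theorem IsDiscAt.pos {O : ValuationSubring L} {π : L} (h : IsDiscAt O π) :
    0 < O.valuation π := val_pos_of_ne_zero O h.1

theorem IsDiscAt.zpow_le_one_iff {O : ValuationSubring L} {π : L} (h : IsDiscAt O π) (a : ℤ) :
    O.valuation π ^ a ≤ 1 ↔ 0 ≤ a :=
  zpow_le_one_iff_right_of_lt_one₀ h.pos h.2.1

theorem IsDiscAt.zpow_lt_one_iff {O : ValuationSubring L} {π : L} (h : IsDiscAt O π) (a : ℤ) :
    O.valuation π ^ a < 1 ↔ 0 < a :=
  zpow_lt_one_iff_right_of_lt_one₀ h.pos h.2.1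

theorem IsDiscAt.zpow_inj {O : ValuationSubring L} {π : L} (h : IsDiscAt O π) {a b : ℤ}
    (hab : O.valuation π ^ a = O.valuation π ^ b) : a = b :=
  (zpow_right_inj₀ h.pos h.2.1.ne).mp hab

/-- **Value group of a Kummer extension by a unit** (polynomials with integral coefficients). -/
theorem kummer_value (π : L) (hπ : IsDiscAt O π)
    (t : ↥v) (htm : t ∈ IsLocalRing.maximalIdeal ↥v)
    (ht : ∀ y : ↥v, y ∈ IsLocalRing.maximalIdeal ↥v → t ∣ y)
    (n : ℕ) (hn : IsUnit ((n : ℕ) : ↥v)) (u : ↥v) (hu : IsUnit u) (zO : ↥O)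
    (hz : zO ^ n = resHom O v hv u) (P : (↥v)[X]) (hP : P.eval₂ (resHom O v hv) zO ≠ 0) :
    ∃ k : ℕ, O.valuation ((P.eval₂ (resHom O v hv) zO : ↥O) : L) =
      O.valuation (algebraMap K L (t : K)) ^ k := by
  letI := isLocalHom_resHom O v hv
  set γ := O.valuation π with hγ
  have hγ0 : 0 < γ := hπ.pos
  have hγ1 : γ < 1 := hπ.2.1
  -- the valuation of `t`
  have htO : resHom O v hv t ∈ IsLocalRing.maximalIdeal ↥O := by
    rw [IsLocalRing.mem_maximalIdeal, mem_nonunits_iff]
    intro hunit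
    have := (isUnit_map_iff (resHom O v hv) t).mp hunit
    exact (IsLocalRing.mem_maximalIdeal _).mp htm this
  have htval : O.valuation (algebraMap K L (t : K)) < 1 := by
    exact (O.valuation_lt_one_iff (resHom O v hv t)).mp htO
  have key : ∀ a : ℕ, ∀ P : (↥v)[X], P.eval₂ (resHom O v hv) zO ≠ 0 →
      O.valuation ((P.eval₂ (resHom O v hv) zO : ↥O) : L) = γ ^ (a : ℤ) →
      ∃ k : ℕ, O.valuation ((P.eval₂ (resHom O v hv) zO : ↥O) : L) =
        O.valuation (algebraMap K L (t : K)) ^ k := by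
    intro a
    induction a using Nat.strong_induction_on with
    | _ a ih =>
      intro P hP0 hPa
      by_cases hunit : IsUnit (P.eval₂ (resHom O v hv) zO)
      · exact ⟨0, by rw [pow_zero]; exact (O.valuation_eq_one_iff _).mp hunit⟩
      · have hPm : P.eval₂ (resHom O v hv) zO ∈ IsLocalRing.maximalIdeal ↥O := by
          rw [IsLocalRing.mem_maximalIdeal, mem_nonunits_iff]; exact hunit
        obtain ⟨P₂, H, hHu, hrel⟩ := kummer_step O v hv t ht n hn u hu zO hz P hPm
        have hH1 : O.valuation ((H.eval₂ (resHom O v hv) zO : ↥O) : L) = 1 :=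
          (O.valuation_eq_one_iff _).mp hHu
        have hrel' : O.valuation ((P.eval₂ (resHom O v hv) zO : ↥O) : L) =
            O.valuation (algebraMap K L (t : K)) * O.valuation ((P₂.eval₂ (resHom O v hv) zO : ↥O) : L) := by
          have := congrArg (fun x : ↥O => O.valuation (x : L)) hrel
          simp only [MulMemClass.coe_mul, map_mul, hH1, mul_one] at this
          rw [this]
          rfl
        have hP₂0 : P₂.eval₂ (resHom O v hv) zO ≠ 0 := by
          intro h0
          rw [h0, mul_zero] at hrel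
          rcases mul_eq_zero.mp hrel with h | h
          · exact hP0 h
          · exact hHu.ne_zero h
        have hP₂0' : ((P₂.eval₂ (resHom O v hv) zO : ↥O) : L) ≠ 0 := by
          intro h0; apply hP₂0; exact Subtype.ext h0
        obtain ⟨b, hb⟩ := hπ.2.2 _ hP₂0'
        have hb0 : 0 ≤ b := by
          rw [← hπ.zpow_le_one_iff, ← hb]
          exact (O.valuation_le_one_iff _).mpr (P₂.eval₂ (resHom O v hv) zO).2
        have ht0' : algebraMap K L (t : K) ≠ 0 := by
          intro h0
          apply hP0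
          have : ((P.eval₂ (resHom O v hv) zO : ↥O) : L) = 0 := by
            have := hrel'
            rw [h0, map_zero, zero_mul] at this
            exact (Valuation.zero_iff _).mp this
          exact Subtype.ext this
        obtain ⟨ε, hε⟩ := hπ.2.2 _ ht0'
        have hε0 : 0 < ε := by
          rw [← hπ.zpow_lt_one_iff, ← hε]; exact htval
        have hab : (a : ℤ) = ε + b := by
          apply hπ.zpow_inj
          rw [← hPa, hrel', hε, hb, zpow_add₀ hγ0.ne']
        have hlt : b.toNat < a := by omega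
        obtain ⟨k, hk⟩ := ih b.toNat hlt P₂ hP₂0 (by rw [hb, Int.toNat_of_nonneg hb0])
        exact ⟨k + 1, by rw [hrel', hk, pow_succ, mul_comm]⟩
  have hP0' : ((P.eval₂ (resHom O v hv) zO : ↥O) : L) ≠ 0 := by
    intro h0; apply hP; exact Subtype.ext h0
  obtain ⟨a, ha⟩ := hπ.2.2 _ hP0'
  have ha0 : 0 ≤ a := by
    rw [← hπ.zpow_le_one_iff, ← ha]
    exact (O.valuation_le_one_iff _).mpr (P.eval₂ (resHom O v hv) zO).2
  exact key a.toNat P hP (by rw [ha, Int.toNat_of_nonneg ha0])

end Value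

section Disc

/-- A valuation subring which is a principal ideal ring and not the whole field is discrete. -/
theorem exists_isDiscAt (O : ValuationSubring L) (hO : O ≠ ⊤) [IsPrincipalIdealRing ↥O] :
    ∃ π : L, IsDiscAt O π := by
  have hne : ∃ y : L, y ∉ O := by
    by_contra h
    simp only [not_exists, not_not] at h
    exact hO (eq_top_iff.mpr fun y _ => h y)
  obtain ⟨y, hy⟩ := hne
  have hy0 : y ≠ 0 := by
    rintro rfl; exact hy O.zero_mem
  have hyinv : y⁻¹ ∈ O := (O.mem_or_inv_mem y).resolve_left hy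
  have hnf : IsLocalRing.maximalIdeal ↥O ≠ ⊥ := by
    intro hbot
    have hmem : (⟨y⁻¹, hyinv⟩ : ↥O) ∈ IsLocalRing.maximalIdeal ↥O := by
      rw [IsLocalRing.mem_maximalIdeal, mem_nonunits_iff, ValuationSubring.valuation_eq_one_iff]
      intro h1
      simp only at h1
      rw [map_inv₀, inv_eq_one] at h1
      exact hy ((O.valuation_le_one_iff _).mp h1.le)
    rw [hbot, Ideal.mem_bot] at hmem
    have : y⁻¹ = 0 := congrArg Subtype.val hmem
    exact hy0 (inv_eq_zero.mp this)
  haveI : IsDiscreteValuationRing ↥O := { not_a_field' := hnf }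
  obtain ⟨ϖ, hϖ⟩ := IsDiscreteValuationRing.exists_irreducible ↥O
  have hϖ0 : (ϖ : L) ≠ 0 := by
    intro h0
    exact hϖ.ne_zero (Subtype.ext h0)
  have hϖ1 : O.valuation (ϖ : L) < 1 := by
    rw [← ValuationSubring.valuation_lt_one_iff, IsLocalRing.mem_maximalIdeal, mem_nonunits_iff]
    exact hϖ.not_isUnit
  have hmem : ∀ Y : L, Y ≠ 0 → Y ∈ O → ∃ k : ℕ, O.valuation Y = O.valuation (ϖ : L) ^ k := by
    intro Y hY0 hYO
    have hY0' : (⟨Y, hYO⟩ : ↥O) ≠ 0 := by
      intro h0; exact hY0 (congrArg Subtype.val h0)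
    obtain ⟨k, u, hk⟩ := IsDiscreteValuationRing.eq_unit_mul_pow_irreducible hY0' hϖ
    refine ⟨k, ?_⟩
    have := congrArg (fun x : ↥O => O.valuation (x : L)) hk
    simp only [MulMemClass.coe_mul, map_mul, SubmonoidClass.coe_pow, map_pow,
      ValuationSubring.valuation_unit, one_mul] at this
    exact this
  refine ⟨ϖ, hϖ0, hϖ1, fun Y hY0 => ?_⟩
  rcases O.mem_or_inv_mem Y with h | h
  · obtain ⟨k, hk⟩ := hmem Y hY0 h
    exact ⟨k, by rw [hk, zpow_natCast]⟩
  · obtain ⟨k, hk⟩ := hmem Y⁻¹ (inv_ne_zero hY0) h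
    refine ⟨-k, ?_⟩
    rw [map_inv₀] at hk
    rw [zpow_neg, zpow_natCast, ← hk, inv_inv]

/-- If all values are powers of the value of `τ` and `τ` is a non-unit, then `τ` is a
uniformiser. -/
theorem div_mem_of_value_group (O : ValuationSubring L) (τ : L) (hτ0 : τ ≠ 0)
    (hτ1 : O.valuation τ < 1)
    (hval : ∀ Y : L, Y ≠ 0 → ∃ k : ℤ, O.valuation Y = O.valuation τ ^ k)
    (Y : L) (hY : Y ∈ O.nonunits) : Y / τ ∈ O := by
  by_cases hY0 : Y = 0
  · rw [hY0, zero_div]; exact O.zero_mem
  obtain ⟨k, hk⟩ := hval Y hY0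
  have hpos := val_pos_of_ne_zero O hτ0
  have hk1 : 0 < k := by
    rw [← zpow_lt_one_iff_right_of_lt_one₀ hpos hτ1, ← hk]
    exact (ValuationSubring.mem_nonunits_iff O).mp hY
  rw [← ValuationSubring.valuation_le_one_iff, map_div₀, hk, div_eq_mul_inv, ← zpow_sub_one₀ hpos.ne']
  rw [zpow_le_one_iff_right_of_lt_one₀ hpos hτ1]
  omega

end Disc

section Field

variable (O : ValuationSubring L) (v : ValuationSubring K)
  (hv : ∀ x : K, x ∈ v ↔ algebraMap K L x ∈ O)

/-- A Kummer generator by a unit is a unit. -/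
theorem val_eq_one_of_pow {n : ℕ} (hn : n ≠ 0) {z : L} (hz : O.valuation (z ^ n) = 1) :
    O.valuation z = 1 := by
  rw [map_pow] at hz
  exact (pow_eq_one_iff_of_nonneg zero_le hn).mp hz

include hv in
/-- Clearing denominators with a power of a non-unit. -/
theorem exists_pow_mul_mem {π : L} (hπ : IsDiscAt O π) {t : K}
    (htval : O.valuation (algebraMap K L t) < 1) (ht0 : algebraMap K L t ≠ 0) (c : K) :
    ∃ m : ℕ, ∀ m' : ℕ, m ≤ m' → t ^ m' * c ∈ v := by
  by_cases hc : algebraMap K L c = 0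
  · refine ⟨0, fun m' _ => ?_⟩
    rw [hv, map_mul, hc, mul_zero]; exact O.zero_mem
  obtain ⟨j, hj⟩ := hπ.2.2 _ hc
  obtain ⟨ε, hε⟩ := hπ.2.2 _ ht0
  have hε0 : 0 < ε := by
    rw [← hπ.zpow_lt_one_iff, ← hε]; exact htval
  refine ⟨(-j).toNat, fun m' hm' => ?_⟩
  rw [hv, ← ValuationSubring.valuation_le_one_iff, map_mul, map_pow, map_mul, map_pow, hj, hε,
    ← zpow_natCast, ← zpow_mul, ← zpow_add₀ hπ.pos.ne', hπ.zpow_le_one_iff]
  have h1 : (-j).toNat ≥ -j := Int.self_le_toNat _
  have h2 : ((-j).toNat : ℤ) ≤ (m' : ℤ) := by exact_mod_cast hm'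
  nlinarith

include hv in
/-- **Value group of a Kummer extension by a unit**: values of `K[z]`, `z ^ n = u` a unit at
`v`, are powers of the value of a uniformiser of `v`. -/
theorem kummer_value_field (π : L) (hπ : IsDiscAt O π)
    (t : K) (htv : t ∈ v.nonunits) (ht0 : t ≠ 0) (htdiv : ∀ y ∈ v.nonunits, y / t ∈ v)
    (n : ℕ) (hn0 : (n : K) ≠ 0) (hnv : ((n : K))⁻¹ ∈ v)
    (u : K) (hu0 : u ≠ 0) (hu : u ∈ v) (hu' : u⁻¹ ∈ v)
    (z : L) (hz : z ^ n = algebraMap K L u) (P : K[X]) (hP : aeval z P ≠ 0) :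
    ∃ k : ℤ, O.valuation (aeval z P) = O.valuation (algebraMap K L t) ^ k := by
  classical
  have hinj : Function.Injective (algebraMap K L) := (algebraMap K L).injective
  have htv' : t ∈ v := ValuationSubring.nonunits_subset htv
  set tv : ↥v := ⟨t, htv'⟩ with htvdef
  have htm : tv ∈ IsLocalRing.maximalIdeal ↥v :=
    ValuationSubring.coe_mem_nonunits_iff.mp htv
  have ht : ∀ y : ↥v, y ∈ IsLocalRing.maximalIdeal ↥v → tv ∣ y := by
    intro y hy
    have hy' : (y : K) ∈ v.nonunits := ValuationSubring.coe_mem_nonunits_iff.mpr hy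
    refine ⟨⟨(y : K) / t, htdiv _ hy'⟩, ?_⟩
    apply Subtype.ext
    simp only [htvdef, MulMemClass.coe_mul]
    field_simp
  have hn : IsUnit ((n : ℕ) : ↥v) := by
    rw [ValuationSubring.valuation_eq_one_iff]
    have : (((n : ℕ) : ↥v) : K) = (n : K) := by simp
    rw [this, val_eq_one_iff v hn0]
    exact ⟨natCast_mem v n, hnv⟩
  set uv : ↥v := ⟨u, hu⟩ with huvdef
  have huv : IsUnit uv := by
    rw [ValuationSubring.valuation_eq_one_iff, val_eq_one_iff v hu0]
    exact ⟨hu, hu'⟩
  have hn' : n ≠ 0 := by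
    rintro rfl; simp at hn0
  have hιu : O.valuation (algebraMap K L u) = 1 := by
    rw [val_eq_one_iff O ((_root_.map_ne_zero _).mpr hu0)]
    refine ⟨(hv u).mp hu, ?_⟩
    rw [← map_inv₀]; exact (hv _).mp hu'
  have hzval : O.valuation z = 1 := val_eq_one_of_pow O hn' (by rw [hz, hιu])
  have hzO : z ∈ O := (O.valuation_le_one_iff _).mp hzval.le
  set zO : ↥O := ⟨z, hzO⟩ with hzOdef
  have hz' : zO ^ n = resHom O v hv uv := by
    apply Subtype.ext
    simp only [hzOdef, SubmonoidClass.coe_pow, coe_resHom, huvdef, hz]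
  have htval : O.valuation (algebraMap K L t) < 1 := by
    rw [← ValuationSubring.mem_nonunits_iff, ValuationSubring.mem_nonunits_iff_or]
    right
    rw [← map_inv₀, ← hv]
    intro hmem
    have h1 := (ValuationSubring.mem_nonunits_iff_or v).mp htv
    rcases h1 with h1 | h1
    · exact ht0 h1
    · exact h1 hmem
  have hιt0 : algebraMap K L t ≠ 0 := (_root_.map_ne_zero _).mpr ht0
  -- clear denominators
  choose mc hmc using fun c : K => exists_pow_mul_mem O v hv hπ htval hιt0 c
  set m := P.support.sup (fun i => mc (P.coeff i)) with hm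
  have hlift : C (t ^ m) * P ∈ Polynomial.lifts v.subtype := by
    rw [Polynomial.lifts_iff_coeff_lifts]
    intro i
    rw [coeff_C_mul]
    by_cases hi : i ∈ P.support
    · have : mc (P.coeff i) ≤ m := Finset.le_sup (f := fun i => mc (P.coeff i)) hi
      exact ⟨⟨_, hmc _ _ this⟩, rfl⟩
    · rw [Polynomial.notMem_support_iff.mp hi, mul_zero]
      exact ⟨0, map_zero _⟩
  obtain ⟨P', hP'⟩ := (Polynomial.mem_lifts _).mp hlift
  have hcoe : ((P'.eval₂ (resHom O v hv) zO : ↥O) : L) =
      algebraMap K L t ^ m * aeval z P := by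
    have h1 : ((P'.eval₂ (resHom O v hv) zO : ↥O) : L) =
        O.subtype (P'.eval₂ (resHom O v hv) zO) := rfl
    rw [h1, Polynomial.hom_eval₂]
    have h2 : O.subtype.comp (resHom O v hv) = (algebraMap K L).comp v.subtype :=
      RingHom.ext fun x => rfl
    rw [h2, ← Polynomial.eval₂_map, hP', eval₂_mul, eval₂_C, map_pow, aeval_def, hzOdef]
    rfl
  have hne : P'.eval₂ (resHom O v hv) zO ≠ 0 := by
    intro h0
    have := hcoe
    rw [h0] at this
    simp only [ZeroMemClass.coe_zero] at this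
    rcases mul_eq_zero.mp this.symm with h | h
    · exact hιt0 (pow_eq_zero_iff (by
        intro hm0; exact absurd h (by rw [hm0, pow_zero]; exact one_ne_zero)) |>.mp h)
    · exact hP h
  obtain ⟨k, hk⟩ := kummer_value O v hv π hπ tv htm ht n hn uv huv zO hz' P' hne
  refine ⟨(k : ℤ) - m, ?_⟩
  rw [hcoe, map_mul, map_pow] at hk
  have hpos := val_pos_of_ne_zero O hιt0
  rw [zpow_sub₀ hpos.ne', zpow_natCast, zpow_natCast, eq_div_iff (pow_ne_zero _ hpos.ne'),
    mul_comm]
  exact hk

include hv in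
/-- **Unramified case**: if `L = K[z]` with `z ^ n = u` a unit at `v`, a uniformiser of `v`
is a uniformiser of `O`. -/
theorem unram_div_mem (π : L) (hπ : IsDiscAt O π)
    (t : K) (htv : t ∈ v.nonunits) (ht0 : t ≠ 0) (htdiv : ∀ y ∈ v.nonunits, y / t ∈ v)
    (n : ℕ) (hn0 : (n : K) ≠ 0) (hnv : ((n : K))⁻¹ ∈ v)
    (u : K) (hu0 : u ≠ 0) (hu : u ∈ v) (hu' : u⁻¹ ∈ v)
    (z : L) (hz : z ^ n = algebraMap K L u) (hgen : ∀ Y : L, ∃ P : K[X], Y = aeval z P)
    (Y : L) (hY : Y ∈ O.nonunits) : Y / algebraMap K L t ∈ O := by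
  have htval : O.valuation (algebraMap K L t) < 1 := by
    rw [← ValuationSubring.mem_nonunits_iff, ValuationSubring.mem_nonunits_iff_or]
    right
    rw [← map_inv₀, ← hv]
    intro hmem
    rcases (ValuationSubring.mem_nonunits_iff_or v).mp htv with h1 | h1
    · exact ht0 h1
    · exact h1 hmem
  refine div_mem_of_value_group O _ ((_root_.map_ne_zero _).mpr ht0) htval (fun Y hY0 => ?_) Y hY
  obtain ⟨P, rfl⟩ := hgen Y
  exact kummer_value_field O v hv π hπ t htv ht0 htdiv n hn0 hnv u hu0 hu hu' z hz P hY0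

/-- Decomposition of `K[s]` over `K[z]` when `s ^ e' = t z`. -/
theorem exists_decomp (s z : L) (t : K) (e' : ℕ) (he' : 0 < e')
    (hs : s ^ e' = algebraMap K L t * z) (P : K[X]) :
    ∃ D : ℕ → K[X], aeval s P = ∑ j ∈ Finset.range e', s ^ j * aeval z (D j) := by
  classical
  induction P using Polynomial.induction_on' with
  | add p q hp hq =>
    obtain ⟨Dp, hDp⟩ := hp
    obtain ⟨Dq, hDq⟩ := hq
    refine ⟨fun j => Dp j + Dq j, ?_⟩
    rw [map_add, hDp, hDq, ← Finset.sum_add_distrib]
    refine Finset.sum_congr rfl fun j _ => ?_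
    rw [map_add, mul_add]
  | monomial n c =>
    refine ⟨fun j => if j = n % e' then C c * (C t * X) ^ (n / e') else 0, ?_⟩
    rw [Finset.sum_eq_single_of_mem (n % e') (Finset.mem_range.mpr (Nat.mod_lt _ he'))]
    · simp only [if_true, map_mul, aeval_C, map_pow, aeval_X, aeval_monomial]
      rw [← hs, ← pow_mul]
      have : n = n % e' + e' * (n / e') := (Nat.mod_add_div n e').symm
      conv_lhs => rw [this, pow_add]
      ring
    · intro j _ hj
      simp [hj]

include hv in
/-- **Totally ramified step**: if `s ^ e' = t z` with `t` a uniformiser of `v` and `z` a Kummer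
generator by a unit, all values of `K[s]` are powers of the value of `s`. -/
theorem ramified_value (π : L) (hπ : IsDiscAt O π)
    (t : K) (htv : t ∈ v.nonunits) (ht0 : t ≠ 0) (htdiv : ∀ y ∈ v.nonunits, y / t ∈ v)
    (n : ℕ) (hn0 : (n : K) ≠ 0) (hnv : ((n : K))⁻¹ ∈ v)
    (u : K) (hu0 : u ≠ 0) (hu : u ∈ v) (hu' : u⁻¹ ∈ v)
    (z : L) (hz : z ^ n = algebraMap K L u)
    (s : L) (e' : ℕ) (he' : 0 < e') (hs : s ^ e' = algebraMap K L t * z)
    (P : K[X]) (hP : aeval s P ≠ 0) :
    ∃ k : ℤ, O.valuation (aeval s P) = O.valuation s ^ k := by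
  classical
  have hn' : n ≠ 0 := by
    rintro rfl; simp at hn0
  have hιu : O.valuation (algebraMap K L u) = 1 := by
    rw [val_eq_one_iff O ((_root_.map_ne_zero _).mpr hu0)]
    refine ⟨(hv u).mp hu, ?_⟩
    rw [← map_inv₀]; exact (hv _).mp hu'
  have hzval : O.valuation z = 1 := val_eq_one_of_pow O hn' (by rw [hz, hιu])
  have hιt0 : algebraMap K L t ≠ 0 := (_root_.map_ne_zero _).mpr ht0
  have hsval : O.valuation s ^ e' = O.valuation (algebraMap K L t) := by
    rw [← map_pow, hs, map_mul, hzval, mul_one]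
  have hs0 : s ≠ 0 := by
    rintro rfl
    rw [map_zero, zero_pow he'.ne'] at hsval
    exact (val_pos_of_ne_zero O hιt0).ne hsval
  have hspos := val_pos_of_ne_zero O hs0
  have htval : O.valuation (algebraMap K L t) < 1 := by
    rw [← ValuationSubring.mem_nonunits_iff, ValuationSubring.mem_nonunits_iff_or]
    right
    rw [← map_inv₀, ← hv]
    intro hmem
    rcases (ValuationSubring.mem_nonunits_iff_or v).mp htv with h1 | h1
    · exact ht0 h1
    · exact h1 hmem
  have hs1 : O.valuation s < 1 := by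
    by_contra hge
    rw [not_lt] at hge
    have : 1 ≤ O.valuation s ^ e' := one_le_pow₀ hge
    rw [hsval] at this
    exact absurd htval (not_lt.mpr this)
  obtain ⟨D, hD⟩ := exists_decomp s z t e' he' hs P
  set f : ℕ → L := fun j => s ^ j * aeval z (D j) with hf
  -- values of the terms
  have hterm : ∀ j, f j ≠ 0 → ∃ m : ℤ, O.valuation (f j) = O.valuation s ^ ((j : ℤ) + e' * m) := by
    intro j hj
    have hDj : aeval z (D j) ≠ 0 := by
      intro h0; apply hj; simp [hf, h0]
    obtain ⟨m, hm⟩ := kummer_value_field O v hv π hπ t htv ht0 htdiv n hn0 hnv u hu0 hu hu' z hz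
      (D j) hDj
    refine ⟨m, ?_⟩
    simp only [hf, map_mul, map_pow, hm, ← hsval]
    rw [zpow_add₀ hspos.ne', zpow_natCast, zpow_mul, zpow_natCast]
  -- a term of maximal value
  obtain ⟨j₀, hj₀mem, hj₀max⟩ := Finset.exists_max_image (Finset.range e')
    (fun j => O.valuation (f j)) ⟨0, Finset.mem_range.mpr he'⟩
  have hsum : aeval s P = ∑ j ∈ Finset.range e', f j := hD
  have hj₀ne : f j₀ ≠ 0 := by
    intro h0
    apply hP
    rw [hsum]
    apply Finset.sum_eq_zero
    intro j hj
    have := hj₀max j hj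
    simp only [h0, map_zero] at this
    exact (Valuation.zero_iff _).mp (le_antisymm this (zero_le))
  have hlt : ∀ j ∈ Finset.range e' \ {j₀}, O.valuation (f j) < O.valuation (f j₀) := by
    intro j hj
    rw [Finset.mem_sdiff, Finset.mem_singleton] at hj
    refine lt_of_le_of_ne (hj₀max j hj.1) fun heq => ?_
    have hjne : f j ≠ 0 := by
      intro h0
      rw [h0, map_zero] at heq
      exact hj₀ne ((Valuation.zero_iff _).mp heq.symm)
    obtain ⟨m, hm⟩ := hterm j hjne
    obtain ⟨m₀, hm₀⟩ := hterm j₀ hj₀ne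
    rw [hm, hm₀] at heq
    have hexp := (zpow_right_inj₀ hspos hs1.ne).mp heq
    have h1 := Finset.mem_range.mp hj.1
    have h2 := Finset.mem_range.mp hj₀mem
    apply hj.2
    have h3 : ((j : ℤ) - j₀) = e' * (m₀ - m) := by linarith
    have h4 : (e' : ℤ) ∣ (j : ℤ) - j₀ := ⟨_, h3⟩
    have h5 : |(j : ℤ) - j₀| < e' := by
      rw [abs_lt]; constructor <;> omega
    have h6 := Int.eq_zero_of_abs_lt_dvd h4 h5
    omega
  obtain ⟨m₀, hm₀⟩ := hterm j₀ hj₀ne
  exact ⟨_, by rw [hsum, Valuation.map_sum_eq_of_lt _ hj₀mem hlt, hm₀]⟩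

include hv in
/-- **Totally ramified case**: `s` is a uniformiser of `O`. -/
theorem ram_div_mem (π : L) (hπ : IsDiscAt O π)
    (t : K) (htv : t ∈ v.nonunits) (ht0 : t ≠ 0) (htdiv : ∀ y ∈ v.nonunits, y / t ∈ v)
    (n : ℕ) (hn0 : (n : K) ≠ 0) (hnv : ((n : K))⁻¹ ∈ v)
    (u : K) (hu0 : u ≠ 0) (hu : u ∈ v) (hu' : u⁻¹ ∈ v)
    (z : L) (hz : z ^ n = algebraMap K L u)
    (s : L) (hs0 : s ≠ 0) (hsm : s ∈ O.nonunits) (e' : ℕ) (he' : 0 < e')
    (hs : s ^ e' = algebraMap K L t * z)
    (hgen : ∀ Y : L, ∃ P : K[X], Y = aeval s P)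
    (Y : L) (hY : Y ∈ O.nonunits) : Y / s ∈ O := by
  refine div_mem_of_value_group O s hs0 ((ValuationSubring.mem_nonunits_iff O).mp hsm)
    (fun Y hY0 => ?_) Y hY
  obtain ⟨P, rfl⟩ := hgen Y
  exact ramified_value O v hv π hπ t htv ht0 htdiv n hn0 hnv u hu0 hu hu' z hz s e' he' hs P hY0

include hv in
theorem val_le_one_iff_mem (x : K) : O.valuation (algebraMap K L x) ≤ 1 ↔ x ∈ v := by
  rw [ValuationSubring.valuation_le_one_iff, hv]

include hv in
theorem isUnit_iff_val_eq_one (x : ↥v) :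
    IsUnit x ↔ O.valuation (algebraMap K L (x : K)) = 1 := by
  rw [ValuationSubring.valuation_eq_one_iff]
  by_cases hx0 : (x : K) = 0
  · rw [hx0, map_zero, map_zero, map_zero]
    simp
  · rw [val_eq_one_iff v hx0, val_eq_one_iff O ((_root_.map_ne_zero _).mpr hx0), ← map_inv₀,
      ← hv, ← hv]

include hv in
/-- The restriction of a discrete valuation subring to a subfield on which it is not trivial
is a principal ideal ring. -/
theorem comap_isPrincipalIdealRing (π : L) (hπ : IsDiscAt O π) (hvtop : v ≠ ⊤) :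
    IsPrincipalIdealRing ↥v := by
  classical
  set γ := O.valuation π with hγ
  have hγ0 : 0 < γ := hπ.pos
  have hne : ∃ c : K, c ∉ v := by
    by_contra h
    simp only [not_exists, not_not] at h
    exact hvtop (eq_top_iff.mpr fun y _ => h y)
  obtain ⟨c, hc⟩ := hne
  have hc0 : c ≠ 0 := by
    rintro rfl; exact hc v.zero_mem
  have hS : ∃ m : ℕ, 0 < m ∧ ∃ c : K, O.valuation (algebraMap K L c) = γ ^ (m : ℤ) := by
    obtain ⟨j, hj⟩ := hπ.2.2 _ ((_root_.map_ne_zero (algebraMap K L)).mpr hc0)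
    have hj0 : j < 0 := by
      by_contra hge
      rw [not_lt] at hge
      apply hc
      rw [← val_le_one_iff_mem O v hv, hj, hπ.zpow_le_one_iff]
      exact hge
    refine ⟨(-j).toNat, by omega, c⁻¹, ?_⟩
    rw [map_inv₀, map_inv₀, hj, ← zpow_neg]
    congr 1
    omega
  set ε := Nat.find hS with hεdef
  obtain ⟨hε0, t₀, ht₀⟩ := Nat.find_spec hS
  have ht₀0 : t₀ ≠ 0 := by
    rintro rfl
    rw [map_zero, map_zero] at ht₀
    exact (zpow_pos hγ0 _).ne ht₀
  have key : ∀ c : K, c ≠ 0 → ∃ q : ℤ, O.valuation (algebraMap K L c) = γ ^ ((ε : ℤ) * q) := by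
    intro c hc0
    obtain ⟨j, hj⟩ := hπ.2.2 _ ((_root_.map_ne_zero (algebraMap K L)).mpr hc0)
    have hεpos : (0 : ℤ) < ε := by exact_mod_cast hε0
    have hr0 := Int.emod_nonneg j hεpos.ne'
    have hr1 := Int.emod_lt_of_pos j hεpos
    have hdecomp := Int.emod_add_mul_ediv j ε
    by_cases hr : j % (ε : ℤ) = 0
    · exact ⟨j / ε, by rw [hj]; congr 1; rw [hr] at hdecomp; linarith⟩
    · exfalso
      have hrpos : 0 < j % (ε : ℤ) := lt_of_le_of_ne hr0 (Ne.symm hr)
      have hmem : 0 < (j % (ε : ℤ)).toNat ∧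
          ∃ c : K, O.valuation (algebraMap K L c) = γ ^ (((j % (ε : ℤ)).toNat : ℕ) : ℤ) := by
        refine ⟨by omega, c / t₀ ^ (j / (ε : ℤ)), ?_⟩
        rw [map_div₀, map_div₀, map_zpow₀, map_zpow₀, hj, ht₀, ← zpow_mul, ← zpow_sub₀ hγ0.ne',
          Int.toNat_of_nonneg hr0]
        congr 1
        linarith
      have := Nat.find_min hS (m := (j % (ε : ℤ)).toNat) (by omega)
      exact this hmem
  have ht₀v : t₀ ∈ v := by
    rw [← val_le_one_iff_mem O v hv, ht₀, hπ.zpow_le_one_iff]; omega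
  have hfac : IsDiscreteValuationRing.HasUnitMulPowIrreducibleFactorization ↥v := by
    refine ⟨⟨t₀, ht₀v⟩, ⟨?_, ?_⟩, ?_⟩
    · rw [isUnit_iff_val_eq_one O v hv]
      simp only
      rw [ht₀]
      intro h1
      have := hπ.zpow_inj (a := (ε : ℤ)) (b := 0) (by rw [h1, zpow_zero])
      omega
    · intro a b hab
      have ha0 : (a : K) ≠ 0 := by
        intro h0
        apply ht₀0
        have := congrArg Subtype.val hab
        simp only [MulMemClass.coe_mul, h0, zero_mul] at this
        exact this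
      have hb0 : (b : K) ≠ 0 := by
        intro h0
        apply ht₀0
        have := congrArg Subtype.val hab
        simp only [MulMemClass.coe_mul, h0, mul_zero] at this
        exact this
      obtain ⟨qa, hqa⟩ := key _ ha0
      obtain ⟨qb, hqb⟩ := key _ hb0
      have hεpos : (0 : ℤ) < ε := by exact_mod_cast hε0
      have hqa0 : 0 ≤ qa := by
        have := (val_le_one_iff_mem O v hv _).mpr a.2
        rw [hqa, hπ.zpow_le_one_iff] at this
        exact nonneg_of_mul_nonneg_right this hεpos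
      have hqb0 : 0 ≤ qb := by
        have := (val_le_one_iff_mem O v hv _).mpr b.2
        rw [hqb, hπ.zpow_le_one_iff] at this
        exact nonneg_of_mul_nonneg_right this hεpos
      have hsum : (ε : ℤ) = ε * qa + ε * qb := by
        apply hπ.zpow_inj
        rw [zpow_add₀ hγ0.ne', ← hqa, ← hqb, ← map_mul, ← map_mul, ← ht₀]
        congr 2
        have := congrArg Subtype.val hab
        simpa using this
      have hone : qa + qb = 1 := by
        have : (ε : ℤ) * (qa + qb) = ε * 1 := by linarith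
        exact mul_left_cancel₀ hεpos.ne' this
      rcases (show qa = 0 ∨ qb = 0 by omega) with h | h
      · left
        rw [isUnit_iff_val_eq_one O v hv, hqa, h, mul_zero, zpow_zero]
      · right
        rw [isUnit_iff_val_eq_one O v hv, hqb, h, mul_zero, zpow_zero]
    · intro x hx
      have hx0 : (x : K) ≠ 0 := fun h0 => hx (Subtype.ext h0)
      obtain ⟨q, hq⟩ := key _ hx0
      have hεpos : (0 : ℤ) < ε := by exact_mod_cast hε0
      have hq0 : 0 ≤ q := by
        have := (val_le_one_iff_mem O v hv _).mpr x.2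
        rw [hq, hπ.zpow_le_one_iff] at this
        exact nonneg_of_mul_nonneg_right this hεpos
      have hval : O.valuation (algebraMap K L ((x : K) / t₀ ^ q.toNat)) = 1 := by
        rw [map_div₀, map_div₀, map_pow, map_pow, hq, ht₀, ← zpow_natCast, ← zpow_mul,
          ← zpow_sub₀ hγ0.ne', Int.toNat_of_nonneg hq0, sub_self, zpow_zero]
      have hmem : (x : K) / t₀ ^ q.toNat ∈ v := by
        rw [← val_le_one_iff_mem O v hv]; exact hval.le
      have hunit : IsUnit (⟨(x : K) / t₀ ^ q.toNat, hmem⟩ : ↥v) := by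
        rw [isUnit_iff_val_eq_one O v hv]; exact hval
      refine ⟨q.toNat, hunit.unit, ?_⟩
      apply Subtype.ext
      simp only [MulMemClass.coe_mul, SubmonoidClass.coe_pow, IsUnit.unit_spec]
      field_simp
  haveI := IsDiscreteValuationRing.ofHasUnitMulPowIrreducibleFactorization hfac
  infer_instance

end Field

end Fermat.Agent.H70.KL
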