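import Fermat.Agent.H22.ES.KLSetting
import Fermat.Agent.H89.KLGauss
import Fermat.Agent.H70.KL.TameNorm

/-!
# KL-N-TAME (row 396), part 4 : chart rings, closures and Gauss closures in a tame layer (helper70)

For a tame Kummer layer `E₁ = E[s]`, `s ^ e = x - c` (`TameSetup`), with `ι : E → E₁` and the
projection `pr : E₁ → E`:
* `ι` maps `A[x]`, `B(x)`, `K₀(x)`, `C(x)` into `A[s]`, `B(s)`, `K₀(s)`, `C(s)`;
* `pr` maps `A[s]`, `B(s)`, `K₀(s)`, `C(s)` into `A[x]`, `B(x)`, `K₀(x)`, `C(x)`;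
* divisibility by `ϖ` is reflected by `ι`.
-/

set_option autoImplicit false
set_option linter.style.haveILetI false
set_option linter.unusedSectionVars false

noncomputable section

namespace Fermat.Agent.H70.KL

open Polynomial Fermat.Agent.H22.KL Fermat.Agent.H89
open Fermat.Agent.H67.KLConn (PiDvd)

section Bridge

variable {A : Type} [CommRing A] [IsDomain A] [IsDiscreteValuationRing A]
  {E : Type} [Field E] [Algebra A E]

/-- Integrality over `A[x]` in ring-hom form. -/
theorem isIntegral_chartRing_iff (x y : E) :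
    IsIntegral (chartRing A E x) y ↔ (evalHom A x).IsIntegralElem y := by
  constructor
  · intro h
    obtain ⟨Q, hQm, hQ⟩ := klg_exists_monic_lift h
    exact ⟨Q, hQm, hQ⟩
  · rintro ⟨Q, hQm, hQ⟩
    let φ : A[X] →+* chartRing A E x :=
      (evalHom A x).codRestrict (chartRing A E x).toSubring
        (fun p => klg_aeval_mem_chartRing x p)
    refine ⟨Q.map φ, hQm.map φ, ?_⟩
    rw [Polynomial.eval₂_map]
    exact hQ

theorem mem_chartClosure_iff' (x y : E) :
    y ∈ chartClosure A E x ↔ (evalHom A x).IsIntegralElem y :=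
  (klg_mem_chartClosure_iff x y).trans (isIntegral_chartRing_iff x y)

end Bridge

namespace TameSetup

variable {A : Type} [CommRing A] [IsDomain A] [IsDiscreteValuationRing A]
  {E E₁ : Type} [Field E] [Field E₁] [Algebra A E] [Algebra E E₁] [Algebra A E₁]
  [IsScalarTower A E E₁]
  {x : E} {c : A} {e : ℕ} {ζ : A} {s : E₁} {σ : E₁ →ₐ[E] E₁}
  (T : TameSetup x c e ζ s σ)

include T

theorem chartRing_lift {h : E} (hh : h ∈ chartRing A E x) :
    algebraMap E E₁ h ∈ chartRing A E₁ s := by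
  obtain ⟨p, rfl⟩ := (klg_mem_chartRing_iff x h).mp hh
  rw [T.algebraMap_aeval]
  exact klg_aeval_mem_chartRing s _

theorem chartRing_pr {r : E₁} (hr : r ∈ chartRing A E₁ s) : T.pr r ∈ chartRing A E x := by
  obtain ⟨p, rfl⟩ := (klg_mem_chartRing_iff s r).mp hr
  rw [T.pr_aeval]
  exact klg_aeval_mem_chartRing x _

theorem chartClosure_lift {y : E} (hy : y ∈ chartClosure A E x) :
    algebraMap E E₁ y ∈ chartClosure A E₁ s := by
  rw [mem_chartClosure_iff'] at hy ⊢
  exact T.intS_algebraMap hy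

theorem chartClosure_pr {Y : E₁} (hY : Y ∈ chartClosure A E₁ s) :
    T.pr Y ∈ chartClosure A E x := by
  rw [mem_chartClosure_iff'] at hY ⊢
  exact T.intX_pr hY

/-- Divisibility by `ϖ` in `A[s]` descends to `A[x]`. -/
theorem piDvd_of_piDvd_lift {ϖ : A} {h : E}
    (hd : PiDvd ϖ (chartRing A E₁ s) 1 (algebraMap E E₁ h)) :
    PiDvd ϖ (chartRing A E x) 1 h := by
  obtain ⟨r, hr, hrd⟩ := hd
  refine ⟨T.pr r, T.chartRing_pr hr, ?_⟩
  have h1 := congrArg T.pr hrd
  rw [T.pr_algebraMap, Algebra.smul_def, T.pr_algebraMapA_mul] at h1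
  rw [h1, Algebra.smul_def]

theorem algebraMap_mem_chartField {a : E} (ha : a ∈ chartField A E x) :
    algebraMap E E₁ a ∈ chartField A E₁ s := by
  have h1 : (chartField A E x).map (algebraMap E E₁) ≤ chartField A E₁ s := by
    unfold chartField
    rw [RingHom.map_field_closure, Subfield.closure_le]
    rintro _ ⟨h, hh, rfl⟩
    exact Subfield.subset_closure (T.chartRing_lift hh)
  exact h1 ⟨a, ha, rfl⟩

theorem s_mem_chartField : s ∈ chartField A E₁ s :=
  Subfield.subset_closure (Algebra.self_mem_adjoin_singleton A s)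

theorem aeval_mem_chartField (P : A[X]) : aeval x P ∈ chartField A E x :=
  Subfield.subset_closure (klg_aeval_mem_chartRing x P)

/-- The projection maps `K₀(s)` into `K₀(x)`. -/
theorem pr_mem_chartField {d : E₁} (hd : d ∈ chartField A E₁ s) :
    T.pr d ∈ chartField A E x := by
  obtain ⟨P, Q, rfl⟩ := klg_mem_closure hd
  by_cases hQ : aeval s Q = 0
  · rw [hQ, div_zero, T.pr_zero]
    exact zero_mem _
  have hn0 := T.aeval_normPoly_ne_zero hQ
  have h1 : aeval s P / aeval s Q =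
      aeval s (P * conjPoly ζ e Q) *
        algebraMap E E₁ ((aeval x (prPoly c e (normPoly ζ e Q)))⁻¹) := by
    rw [map_inv₀, ← T.aeval_mul_conjPoly, map_mul]
    have hc : aeval s (conjPoly ζ e Q) ≠ 0 := by
      intro h0
      have := T.aeval_mul_conjPoly Q
      rw [h0, mul_zero] at this
      exact hn0 ((_root_.map_eq_zero _).mp this.symm)
    field_simp
  rw [h1, T.pr_mul_algebraMap, T.pr_aeval]
  exact mul_mem (T.aeval_mem_chartField _) (inv_mem (T.aeval_mem_chartField _))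

theorem gaussClosure_lift {ϖ : A} {y : E} (hy : y ∈ gaussClosure A E ϖ x) :
    algebraMap E E₁ y ∈ gaussClosure A E₁ ϖ s := by
  obtain ⟨h, hh, hnd, hhy⟩ := hy
  refine ⟨algebraMap E E₁ h, T.chartRing_lift hh, fun hd => hnd (T.piDvd_of_piDvd_lift hd), ?_⟩
  rw [← map_mul]
  exact T.chartClosure_lift hhy

theorem gaussClosure_pr (hx : Transcendental A x) {ϖ : A} (hϖ : Irreducible ϖ) {Y : E₁}
    (hY : Y ∈ gaussClosure A E₁ ϖ s) : T.pr Y ∈ gaussClosure A E ϖ x := by
  obtain ⟨h, hh, hnd, hhY⟩ := hY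
  have hs := T.transcendental_s hx
  obtain ⟨P, rfl, hP⟩ := klg_exists_poly hs ϖ hh hnd
  have hϖ' : Prime ϖ := hϖ.prime
  refine ⟨aeval x (prPoly c e (normPoly ζ e P)), klg_aeval_mem_chartRing x _, ?_, ?_⟩
  · rw [klg_piDvd_aeval_iff hx]
    exact fun hd => hP (T.C_dvd_of_C_dvd_normPoly hx hϖ' hd)
  · rw [← T.pr_algebraMap_mul, ← T.aeval_mul_conjPoly]
    have h1 : aeval s P * aeval s (conjPoly ζ e P) * Y =
        aeval s (conjPoly ζ e P) * (aeval s P * Y) := by ring
    rw [h1]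
    apply T.chartClosure_pr
    exact mul_mem (klg_chartRing_le_chartClosure s (klg_aeval_mem_chartRing s _)) hhY

theorem piDvdSet_lift {ϖ : A} {z : E} (hz : PiDvdSet A E ϖ (gaussClosure A E ϖ x) z) :
    PiDvdSet A E₁ ϖ (gaussClosure A E₁ ϖ s) (algebraMap E E₁ z) := by
  obtain ⟨r, hr, rfl⟩ := hz
  exact ⟨algebraMap E E₁ r, T.gaussClosure_lift hr, by
    rw [map_mul, ← IsScalarTower.algebraMap_apply A E E₁]⟩

theorem piDvdSet_pr (hx : Transcendental A x) {ϖ : A} (hϖ : Irreducible ϖ) {Z : E₁}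
    (hZ : PiDvdSet A E₁ ϖ (gaussClosure A E₁ ϖ s) Z) :
    PiDvdSet A E ϖ (gaussClosure A E ϖ x) (T.pr Z) := by
  obtain ⟨r, hr, rfl⟩ := hZ
  exact ⟨T.pr r, T.gaussClosure_pr hx hϖ hr, by rw [T.pr_algebraMapA_mul]⟩

end TameSetup

end Fermat.Agent.H70.KL
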