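import Fermat.Agent.H70.KL.TameAvg

/-!
# KL-N-TAME (row 396), part 5 : the model `E₁ = E[S] / (S ^ e - (x - c))` (helper70)

Mathlib only.  If `S ^ e - (x - c)` is irreducible over `E`, `AdjoinRoot` of it carries a
`TameSetup`.
-/

set_option autoImplicit false
set_option linter.style.haveILetI false
set_option linter.unusedSectionVars false

noncomputable section

namespace Fermat.Agent.H70.KL

open Polynomial

variable {A : Type*} [CommRing A] [IsDomain A] {E : Type*} [Field E] [Algebra A E]

/-- The Kummer polynomial `S ^ e - (x - c)`. -/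
def tamePoly (x : E) (c : A) (e : ℕ) : E[X] := X ^ e - C (x - algebraMap A E c)

omit [IsDomain A] in
theorem eval₂_tamePoly {B : Type*} [CommRing B] (φ : E →+* B) (z : B) (x : E) (c : A) (e : ℕ) :
    (tamePoly x c e).eval₂ φ z = z ^ e - φ (x - algebraMap A E c) := by
  unfold tamePoly
  rw [eval₂_sub, eval₂_pow, eval₂_X, eval₂_C]

omit [IsDomain A] in
theorem root_pow_tamePoly (x : E) (c : A) (e : ℕ) :
    AdjoinRoot.root (tamePoly x c e) ^ e =
      algebraMap E (AdjoinRoot (tamePoly x c e)) (x - algebraMap A E c) := by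
  have h := AdjoinRoot.eval₂_root (tamePoly x c e)
  rw [eval₂_tamePoly, sub_eq_zero] at h
  rw [h, AdjoinRoot.algebraMap_eq]

/-- The tame Kummer layer exists as soon as the Kummer polynomial is irreducible. -/
theorem exists_tameSetup (hinj : Function.Injective (algebraMap A E)) (x : E) (c : A) (e : ℕ)
    (ζ : A) (he : 0 < e) (hζ : IsPrimitiveRoot ζ e) (heU : IsUnit ((e : ℕ) : A))
    (hxc : x - algebraMap A E c ≠ 0) [Fact (Irreducible (tamePoly x c e))] :
    ∃ σ : AdjoinRoot (tamePoly x c e) →ₐ[E] AdjoinRoot (tamePoly x c e),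
      TameSetup x c e ζ (AdjoinRoot.root (tamePoly x c e)) σ := by
  have hroot := root_pow_tamePoly x c e
  have hζe : ζ ^ e = 1 := hζ.pow_eq_one
  have h0 : (tamePoly x c e).eval₂
      ((Algebra.ofId E (AdjoinRoot (tamePoly x c e)) :
        E →ₐ[E] AdjoinRoot (tamePoly x c e)) : E →+* AdjoinRoot (tamePoly x c e))
      (algebraMap A (AdjoinRoot (tamePoly x c e)) ζ * AdjoinRoot.root (tamePoly x c e)) = 0 := by
    rw [eval₂_tamePoly, mul_pow, ← map_pow, hζe, map_one, one_mul, hroot, sub_eq_zero]
    rfl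
  refine ⟨AdjoinRoot.liftAlgHom (tamePoly x c e) (Algebra.ofId E (AdjoinRoot (tamePoly x c e)))
    (algebraMap A (AdjoinRoot (tamePoly x c e)) ζ * AdjoinRoot.root (tamePoly x c e)) h0, ?_⟩
  exact
    { he := he
      hζ := hζ
      heU := heU
      hs := hroot
      hgen := by
        intro Y
        obtain ⟨P, rfl⟩ := AdjoinRoot.mk_surjective Y
        exact ⟨P, (AdjoinRoot.aeval_eq P).symm⟩
      hσ := AdjoinRoot.liftAlgHom_root _ _ _ _
      hinj := hinj
      hxc := hxc }

end Fermat.Agent.H70.KL
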