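import Fermat.Agent.H22.ES.KLSetting
import Fermat.Agent.H70.KL.TameAvg

/-!
# KL-N-TAME (row 396) : the three sub-row statements (helper70)

`KummerIrrStatement` (row 571), `TameUnramStatement` (row 572), `TameGoodBasisStatement`
(row 573), as `Prop`s, so that the final assembly does not depend on where they are proved.
-/

set_option autoImplicit false

noncomputable section

namespace Fermat.Agent.H70.KL

open Polynomial Fermat.Agent.H22.KL

/-- Row 571: `X ^ e - a` is irreducible over a field containing a primitive `e`-th root of unity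
if `a` is not a `d`-th power for any prime `d ∣ e`. -/
def KummerIrrStatement : Prop :=
  ∀ (K : Type) [Field K] (e : ℕ), 0 < e → ∀ ζ : K, IsPrimitiveRoot ζ e → ∀ a : K,
    (∀ d : ℕ, d.Prime → d ∣ e → ∀ b : K, b ^ d ≠ a) → Irreducible (X ^ e - C a : K[X])

/-- Row 572: Abhyankar's lemma in the form `TameNear (E, x, c, e) → UnramifiedNear (E₁, s, X)`. -/
def TameUnramStatement : Prop :=
  ∀ (A : Type) [CommRing A] [IsDomain A] [IsDiscreteValuationRing A]
    (E E₁ : Type) [Field E] [Field E₁] [Algebra A E] [Algebra E E₁] [Algebra A E₁]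
    [IsScalarTower A E E₁] [CharZero E]
    (x : E) (c : A) (e : ℕ) (ζ : A) (s : E₁) (σ : E₁ →ₐ[E] E₁),
    TameSetup x c e ζ s σ → ∀ ϖ : A, Irreducible ϖ → Transcendental A x →
      TameNear A E ϖ x c e → UnramifiedNear A E₁ ϖ s (X : A[X])

/-- Row 573: a good basis of `E` in the chart `x` is a good basis of `E₁` in the chart `s`. -/
def TameGoodBasisStatement : Prop :=
  ∀ (A : Type) [CommRing A] [IsDomain A] [IsDiscreteValuationRing A]
    (E E₁ : Type) [Field E] [Field E₁] [Algebra A E] [Algebra E E₁] [Algebra A E₁]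
    [IsScalarTower A E E₁]
    (x : E) (c : A) (e : ℕ) (ζ : A) (s : E₁) (σ : E₁ →ₐ[E] E₁),
    TameSetup x c e ζ s σ → Transcendental A x → ∀ ϖ : A, Irreducible ϖ →
      GoodBasis A E ϖ x → GoodBasis A E₁ ϖ s

end Fermat.Agent.H70.KL
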