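import Fermat.Agent.H22.ES.KLSetting3
import Fermat.Agent.H70.KL.TameGauss
import Fermat.Agent.H70.KL.TameModel
import Fermat.Agent.H70.KL.TameStatements

/-!
# KL-N-TAME (row 396) : the assembly (helper70)

`normalityAt_of_parts` : purity + the three sub-row statements (irreducibility of the Kummer
polynomial, Abhyankar, good basis of the tame layer) give `NormalityAtStatement`.
-/

set_option autoImplicit false
set_option linter.style.haveILetI false
set_option linter.unusedSectionVars false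

noncomputable section

namespace Fermat.Agent.H70.KL

open Polynomial Fermat.Agent.H22.KL Fermat.Agent.H89
open Fermat.Agent.H67.KLConn (PiDvd)

section Core

variable {A : Type} [CommRing A] [IsDomain A] [IsDiscreteValuationRing A]
  {E E₁ : Type} [Field E] [Field E₁] [Algebra A E] [Algebra E E₁] [Algebra A E₁]
  [IsScalarTower A E E₁]
  {x : E} {c : A} {e : ℕ} {ζ : A} {s : E₁} {σ : E₁ →ₐ[E] E₁}

theorem TameSetup.pr_sub (T : TameSetup x c e ζ s σ) (Y Z : E₁) :
    T.pr (Y - Z) = T.pr Y - T.pr Z := by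
  have h := T.pr_add (Y - Z) Z
  rw [sub_add_cancel] at h
  rw [h, add_sub_cancel_right]

/-- `OutsideMax` descends along `prPoly`. -/
theorem outsideMax_prPoly {ϖ : A} {c : A} {e : ℕ} (he : 0 < e) {s₁ : A[X]}
    (h : OutsideMax A ϖ (X : A[X]) s₁) : OutsideMax A ϖ (X - C c) (prPoly c e s₁) := by
  rintro ⟨p, q, hpq⟩
  apply h
  have h1 := congrArg (Polynomial.eval c) hpq
  rw [eval_prPoly c he, eval_add, eval_mul, eval_mul, eval_sub, eval_X, eval_C, eval_C, sub_self,
    zero_mul, add_zero] at h1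
  refine ⟨C (p.eval c), s₁.divX, ?_⟩
  have h2 := Polynomial.divX_mul_X_add s₁
  rw [Polynomial.coeff_zero_eq_eval_zero, h1, map_mul] at h2
  rw [mul_comm X, add_comm]
  exact h2.symm

/-- The descent step: purity in the tame layer gives the conclusion of `NormalityAt` at
`X - C c`. -/
theorem normalityAt_core (hP : PurityStatement) [CharZero E] (T : TameSetup x c e ζ s σ)
    (hx : Transcendental A x) {ϖ : A} (hϖ : Irreducible ϖ)
    (hGB : GoodBasis A E₁ ϖ s) (hU : UnramifiedNear A E₁ ϖ s (X : A[X]))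
    {y : E} (hy : y ∈ gaussClosure A E ϖ x)
    (hyy : PiDvdSet A E ϖ (gaussClosure A E ϖ x) (y * y - y)) :
    ∃ s' : A[X], OutsideMax A ϖ (X - C c) s' ∧ ∃ b ∈ chartClosure A E x,
      PiDvdSet A E ϖ (gaussClosure A E ϖ x) (aeval x s' * y - b) := by
  haveI : CharZero E₁ := charZero_of_injective_algebraMap (algebraMap E E₁).injective
  have hirrX : Irreducible ((X : A[X]).map (IsLocalRing.residue A)) := by
    rw [Polynomial.map_X]
    exact Polynomial.irreducible_X
  have hyy₁ : PiDvdSet A E₁ ϖ (gaussClosure A E₁ ϖ s)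
      (algebraMap E E₁ y * algebraMap E E₁ y - algebraMap E E₁ y) := by
    have := T.piDvdSet_lift hyy
    rwa [map_sub, map_mul] at this
  obtain ⟨s₁, hs₁, b₁, hb₁, hc₁⟩ := hP A E₁ T.hinj₁ ϖ hϖ s (T.transcendental_s hx) hGB X
    Polynomial.monic_X hirrX hU (algebraMap E E₁ y) (T.gaussClosure_lift hy) hyy₁
  refine ⟨prPoly c e s₁, outsideMax_prPoly T.he hs₁, T.pr b₁, T.chartClosure_pr hb₁, ?_⟩
  have h1 := T.piDvdSet_pr hx hϖ hc₁
  rwa [T.pr_sub, T.pr_mul_algebraMap, T.pr_aeval] at h1

end Core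

/-- **KL-N-TAME**: purity and the three sub-row statements give `NormalityAtStatement`. -/
theorem normalityAt_of_parts (hI : KummerIrrStatement) (hU : TameUnramStatement)
    (hB : TameGoodBasisStatement) (hP : PurityStatement) : NormalityAtStatement := by
  intro A _ _ _ E _ _ _ hinj ϖ hϖ x hx hGB g hgm hgirr hBr y hy hyy
  rcases hBr with hUn | ⟨c, e, ⟨p, hp⟩, he, heU, ⟨ζ, hζ⟩, hT, hO⟩
  · exact hP A E hinj ϖ hϖ x hx hGB g hgm hgirr hUn y hy hyy
  · have hxc : x - algebraMap A E c ≠ 0 := by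
      intro h0
      apply hx
      rw [sub_eq_zero] at h0
      rw [h0]
      exact isAlgebraic_algebraMap c
    have hirr : Irreducible (tamePoly x c e) := by
      refine hI E e he (algebraMap A E ζ) (hζ.map_of_injective hinj) _ ?_
      intro d hd hde b hb
      obtain ⟨v, -, hnv⟩ := hO d hd hde
      apply hnv
      have hb0 : b ≠ 0 := by
        rintro rfl
        rw [zero_pow hd.ne_zero] at hb
        exact hxc hb.symm
      have h1 : (x - algebraMap A E c) * b⁻¹ ^ d = 1 := by
        rw [← hb, inv_pow]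
        exact mul_inv_cancel₀ (pow_ne_zero _ hb0)
      refine ⟨b⁻¹, inv_ne_zero hb0, ?_, ?_⟩
      · rw [h1]; exact v.one_mem
      · rw [h1, inv_one]; exact v.one_mem
    haveI : Fact (Irreducible (tamePoly x c e)) := ⟨hirr⟩
    obtain ⟨σ, T⟩ := exists_tameSetup hinj x c e ζ he hζ heU hxc
    have hGB₁ := hB A E _ x c e ζ _ σ T hx ϖ hϖ hGB
    have hU₁ := hU A E _ x c e ζ _ σ T ϖ hϖ hx hT
    obtain ⟨s', hs', b, hb, hc⟩ := normalityAt_core hP T hx hϖ hGB₁ hU₁ hy hyy
    have hg' : g = (X - C c) + C ϖ * p := hp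
    exact ⟨s', (outsideMax_congr hg').mp hs', b, hb, hc⟩

end Fermat.Agent.H70.KL
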